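/-
MAZUR (Track M), package (E2) (helper1), part 5: **the `p`-adic cyclotomic character of `G_ℚ`**.

`mze2Eps p : G_ℚ →* ℤ_[p]ˣ` is Mathlib's `cyclotomicCharacter ℚ̄ p`.
* `mze2Eps_iff` : `g ζ = ζ ^ e` on a primitive `p^n`-th root of unity iff `ε(g) ≡ e mod p^n`;
* `mze2Eps_conj` : `ε(c) = -1`;
* `mze2Eps_frob` : `ε(Frob_ℓ) = ℓ` (`ℓ ≠ p`);
* `mze2Eps_level` : `ε ≡ 1 mod p^n` on the automorphisms fixing `ζ_{p^n}`.
-/
import Mathlib
import Fermat.Prelude.Def_GaloisRep_ComplexConjugation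
import Fermat.Agent.Lib.TW.TWPrimes.Cyclo

set_option autoImplicit false
set_option linter.style.haveILetI false
set_option linter.unusedSectionVars false

namespace Fermat.Agent.Mazur

open Fermat.Agent.TW Fermat.Agent.CFT Fermat.Agent.CFT.Pinf

local notation "Qb" => AlgebraicClosure ℚ
local notation "GQ" => (AlgebraicClosure ℚ ≃ₐ[ℚ] AlgebraicClosure ℚ)

variable (p : ℕ) [hp : Fact p.Prime]

/-- the `p`-adic cyclotomic character of `G_ℚ` -/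
noncomputable def mze2Eps : GQ →* ℤ_[p]ˣ :=
  (cyclotomicCharacter Qb p).comp (MulSemiringAction.toRingAut GQ Qb)

instance mze2_neZero_pow (n : ℕ) : NeZero (p ^ n) := ⟨pow_ne_zero _ hp.out.ne_zero⟩

/-- natural numbers which are congruent modulo `p^n` in `ℤ_p` -/
theorem mze2_modEq_of_sub_mem {n a b : ℕ}
    (h : ∃ c : ℤ_[p], (a : ℤ_[p]) - (b : ℤ_[p]) = (p : ℤ_[p]) ^ n * c) : a ≡ b [MOD p ^ n] := by
  obtain ⟨c, hc⟩ := h
  have h1 : (a : ℤ_[p]) - (b : ℤ_[p]) ∈ RingHom.ker (PadicInt.toZModPow (p := p) n) := by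
    rw [PadicInt.ker_toZModPow, Ideal.mem_span_singleton]
    exact ⟨c, hc⟩
  rw [RingHom.mem_ker, map_sub, map_natCast, map_natCast, sub_eq_zero] at h1
  exact (ZMod.natCast_eq_natCast_iff a b (p ^ n)).mp h1

theorem mze2_sub_mem_of_modEq {n a b : ℕ} (h : a ≡ b [MOD p ^ n]) :
    ∃ c : ℤ_[p], (a : ℤ_[p]) - (b : ℤ_[p]) = (p : ℤ_[p]) ^ n * c := by
  have h1 : ((a : ℤ_[p]) - (b : ℤ_[p])) ∈ RingHom.ker (PadicInt.toZModPow (p := p) n) := by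
    rw [RingHom.mem_ker, map_sub, map_natCast, map_natCast, sub_eq_zero]
    exact (ZMod.natCast_eq_natCast_iff a b (p ^ n)).mpr h
  rw [PadicInt.ker_toZModPow, Ideal.mem_span_singleton] at h1
  exact h1

/-- `x ≡ appr x n mod p^n` -/
theorem mze2_appr_spec (x : ℤ_[p]) (n : ℕ) :
    ∃ c : ℤ_[p], x - (PadicInt.appr x n : ℤ_[p]) = (p : ℤ_[p]) ^ n * c := by
  have := PadicInt.appr_spec n x
  rwa [Ideal.mem_span_singleton] at this

/-- the defining property -/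
theorem mze2Eps_spec (g : GQ) (n : ℕ) (ζ : Qb) (hζ : ζ ^ p ^ n = 1) :
    g ζ = ζ ^ (PadicInt.appr ((mze2Eps p g : ℤ_[p]ˣ) : ℤ_[p]) n) := by
  have h1 := cyclotomicCharacter.spec (L := Qb) p (MulSemiringAction.toRingAut GQ Qb g) ζ hζ
  have h2 : (PadicInt.toZModPow n
      (((cyclotomicCharacter Qb p) (MulSemiringAction.toRingAut GQ Qb g) : ℤ_[p]ˣ) : ℤ_[p])).val
      = PadicInt.appr ((mze2Eps p g : ℤ_[p]ˣ) : ℤ_[p]) n := by
    show ((PadicInt.appr _ n : ℕ) : ZMod (p ^ n)).val = _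
    rw [ZMod.val_natCast_of_lt (PadicInt.appr_lt _ n)]
    rfl
  rw [h2] at h1
  exact h1

/-- **the key characterisation**: `g ζ_{p^n} = ζ_{p^n} ^ e` iff `ε(g) ≡ e mod p^n` -/
theorem mze2Eps_iff (g : GQ) (n : ℕ) (e : ℕ) {ζ : Qb} (hζ : IsPrimitiveRoot ζ (p ^ n)) :
    g ζ = ζ ^ e ↔ ∃ c : ℤ_[p], ((mze2Eps p g : ℤ_[p]ˣ) : ℤ_[p]) - (e : ℤ_[p]) = (p : ℤ_[p]) ^ n * c := by
  have hspec := mze2Eps_spec p g n ζ hζ.pow_eq_one
  obtain ⟨c0, hc0⟩ := mze2_appr_spec p ((mze2Eps p g : ℤ_[p]ˣ) : ℤ_[p]) n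
  have hfin : IsOfFinOrder ζ :=
    isOfFinOrder_iff_pow_eq_one.mpr ⟨p ^ n, pow_pos hp.out.pos n, hζ.pow_eq_one⟩
  rw [hspec, hfin.pow_eq_pow_iff_modEq, ← hζ.eq_orderOf]
  constructor
  · intro h
    obtain ⟨c1, hc1⟩ := mze2_sub_mem_of_modEq p h
    refine ⟨c0 + c1, ?_⟩
    rw [mul_add, ← hc0, ← hc1]
    ring
  · rintro ⟨c1, hc1⟩
    apply mze2_modEq_of_sub_mem p
    refine ⟨c1 - c0, ?_⟩
    rw [mul_sub, ← hc0, ← hc1]
    ring

/-- uniqueness: a `p`-adic integer describing the action on all `ζ_{p^n}` is `ε(g)` -/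
theorem mze2Eps_eq_of_forall (g : GQ) (a : ℤ_[p])
    (h : ∀ n : ℕ, ∃ e : ℕ, g (zetaQbar (p ^ n)) = zetaQbar (p ^ n) ^ e ∧
      ∃ c : ℤ_[p], a - (e : ℤ_[p]) = (p : ℤ_[p]) ^ n * c) :
    ((mze2Eps p g : ℤ_[p]ˣ) : ℤ_[p]) = a := by
  rw [← sub_eq_zero]
  apply PadicInt.ext_of_toZModPow.mp
  intro n
  rw [map_zero, ← RingHom.mem_ker, PadicInt.ker_toZModPow, Ideal.mem_span_singleton]
  obtain ⟨e, he, c, hc⟩ := h n
  obtain ⟨c1, hc1⟩ := (mze2Eps_iff p g n e (zetaQbar_spec (p ^ n))).mp he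
  refine ⟨c1 - c, ?_⟩
  rw [mul_sub, ← hc, ← hc1]
  ring

/-- **`ε(c) = -1`** -/
theorem mze2Eps_conj : ((mze2Eps p complexConjugation : ℤ_[p]ˣ) : ℤ_[p]) = -1 := by
  apply mze2Eps_eq_of_forall
  intro n
  have hpos : 0 < p ^ n := pow_pos hp.out.pos n
  set ζ := zetaQbar (p ^ n) with hζdef
  have hζ : ζ ^ p ^ n = 1 := (zetaQbar_spec (p ^ n)).pow_eq_one
  refine ⟨p ^ n - 1, ?_, -1, ?_⟩
  · -- `c ζ = ζ⁻¹`
    have hζ0 : ζ ≠ 0 := (zetaQbar_spec (p ^ n)).ne_zero hpos.ne'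
    have h1 : complexConjugation ζ = ζ⁻¹ := by
      apply (complexEmbedding : Qb →+* ℂ).injective
      show complexEmbedding (complexConjugation ζ) = complexEmbedding ζ⁻¹
      rw [complexEmbedding_complexConjugation, map_inv₀]
      have hnorm : ‖complexEmbedding ζ‖ = 1 := by
        apply Complex.norm_eq_one_of_pow_eq_one (n := p ^ n) _ hpos.ne'
        rw [← map_pow, hζ, map_one]
      exact (Complex.inv_eq_conj hnorm).symm
    rw [h1]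
    apply inv_eq_of_mul_eq_one_right
    rw [← pow_succ', Nat.sub_add_cancel hpos, hζ]
  · rw [Nat.cast_sub hpos, Nat.cast_pow, Nat.cast_one]
    ring

/-- **`ε(Frob_ℓ) = ℓ`** -/
theorem mze2Eps_frob {A : ValuationSubring Qb} {φ : GQ} {l : ℕ} (hlp : Nat.Coprime p l)
    (hA : A.LiesOverPrime l) (hφ : A.IsFrobeniusAt φ l) :
    ((mze2Eps p φ : ℤ_[p]ˣ) : ℤ_[p]) = (l : ℤ_[p]) := by
  apply mze2Eps_eq_of_forall
  intro n
  refine ⟨l, ?_, 0, by rw [sub_self, mul_zero]⟩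
  exact twp_frobenius_rootOfUnity hA hφ (pow_pos hp.out.pos n) (Nat.Coprime.pow_left n hlp)
    (zetaQbar_spec (p ^ n)).pow_eq_one

/-- **finite level**: `ε ≡ 1 mod p^n` on the automorphisms fixing `ζ_{p^n}` -/
theorem mze2Eps_level (n : ℕ) (σ : GQ) (hσ : σ (zetaQbar (p ^ n)) = zetaQbar (p ^ n)) :
    ∃ c : ℤ_[p], ((mze2Eps p σ : ℤ_[p]ˣ) : ℤ_[p]) - 1 = (p : ℤ_[p]) ^ n * c := by
  have h1 : σ (zetaQbar (p ^ n)) = zetaQbar (p ^ n) ^ 1 := by rw [pow_one, hσ]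
  obtain ⟨c, hc⟩ := (mze2Eps_iff p σ n 1 (zetaQbar_spec (p ^ n))).mp h1
  exact ⟨c, by rw [← hc, Nat.cast_one]⟩

/-- the level of `ε mod p^n` as a finite extension -/
theorem mze2Eps_exists_level (n : ℕ) : ∃ L : IntermediateField ℚ Qb, FiniteDimensional ℚ L ∧
    ∀ σ : GQ, (∀ x ∈ L, σ x = x) →
      ∃ c : ℤ_[p], ((mze2Eps p σ : ℤ_[p]ˣ) : ℤ_[p]) - 1 = (p : ℤ_[p]) ^ n * c := by
  haveI := Fermat.Agent.Lib.Helper6.isGalois_rat_algebraicClosure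
  refine ⟨IntermediateField.adjoin ℚ {zetaQbar (p ^ n)},
    (finiteDimensional_isGalois_adjoin_primitiveRoot (zetaQbar_spec (p ^ n))).1, fun σ hσ => ?_⟩
  exact mze2Eps_level p n σ (hσ _ (IntermediateField.mem_adjoin_simple_self ℚ _))

/-- **from the `MzsObj.cyc` form to `ε`**: an exponent describing the action on `μ_m`,
`p^k ∣ m`, is congruent to `appr (ε g) k` modulo `p^k` -/
theorem mze2Eps_modEq (g : GQ) (k : ℕ) (e : ℕ)
    (h : ∀ ζ : Qb, ζ ^ p ^ k = 1 → g ζ = ζ ^ e) :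
    e ≡ PadicInt.appr ((mze2Eps p g : ℤ_[p]ˣ) : ℤ_[p]) k [MOD p ^ k] := by
  have h1 := h _ (zetaQbar_spec (p ^ k)).pow_eq_one
  have hfin : IsOfFinOrder (zetaQbar (p ^ k)) :=
    isOfFinOrder_iff_pow_eq_one.mpr
      ⟨p ^ k, pow_pos hp.out.pos k, (zetaQbar_spec (p ^ k)).pow_eq_one⟩
  rw [mze2Eps_spec p g k _ (zetaQbar_spec (p ^ k)).pow_eq_one, hfin.pow_eq_pow_iff_modEq,
    ← (zetaQbar_spec (p ^ k)).eq_orderOf] at h1
  exact h1.symm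

end Fermat.Agent.Mazur
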