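/-
MAZUR (Track M), package (E2) (helper1), part 4: **`p`-adic separation, closedness and completeness
in finitely generated `ℤ_p`-modules** (`import Mathlib` only).

* `mze2_eq_zero_of_forall_dvd` : an element of a f.g. `ℤ_p`-module divisible by every `p^n` is `0`;
* `mze2_mem_of_forall_approx` : a submodule `S` of a f.g. `ℤ_p`-module is `p`-adically closed;
* `mze2_end_dvd_of_pointwise` : an endomorphism of a free module all of whose values are divisible
  by `p^n` is divisible by `p^n`;
* `mze2_exists_limit` : a free `ℤ_p`-module of finite rank is `p`-adically complete;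
* `mze2_exists_limit_end` : the same for its endomorphism ring, pointwise form.
-/
import Mathlib

set_option autoImplicit false
set_option linter.style.haveILetI false
set_option linter.unusedSectionVars false

namespace Fermat.Agent.Mazur

section Sep

variable {p : ℕ} [hp : Fact p.Prime] {M : Type*} [AddCommGroup M] [Module ℤ_[p] M]
  [Module.Finite ℤ_[p] M]

/-- **separation**: an element divisible by every power of `p` vanishes -/
theorem mze2_eq_zero_of_forall_dvd (x : M) (h : ∀ n : ℕ, ∃ w : M, x = (p : ℤ_[p]) ^ n • w) :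
    x = 0 := by
  have hK := Ideal.iInf_pow_smul_eq_bot_of_isLocalRing (R := ℤ_[p]) (M := M)
    (IsLocalRing.maximalIdeal ℤ_[p]) (Ideal.IsMaximal.ne_top inferInstance)
  have hx : x ∈ ⨅ i : ℕ, (IsLocalRing.maximalIdeal ℤ_[p]) ^ i • (⊤ : Submodule ℤ_[p] M) := by
    rw [Submodule.mem_iInf]
    intro n
    obtain ⟨w, rfl⟩ := h n
    refine Submodule.smul_mem_smul ?_ Submodule.mem_top
    rw [PadicInt.maximalIdeal_eq_span_p, Ideal.span_singleton_pow]
    exact Ideal.mem_span_singleton_self _
  rw [hK] at hx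
  exact (Submodule.mem_bot _).mp hx

/-- **closedness**: a submodule of a finitely generated `ℤ_p`-module is `p`-adically closed -/
theorem mze2_mem_of_forall_approx (S : Submodule ℤ_[p] M) (x : M)
    (h : ∀ n : ℕ, ∃ s ∈ S, ∃ w : M, x - s = (p : ℤ_[p]) ^ n • w) : x ∈ S := by
  have h1 : S.mkQ x = 0 := by
    apply mze2_eq_zero_of_forall_dvd (p := p)
    intro n
    obtain ⟨s, hs, w, hw⟩ := h n
    refine ⟨S.mkQ w, ?_⟩
    have hs0 : S.mkQ s = 0 := (Submodule.Quotient.mk_eq_zero S).mpr hs
    rw [← map_smul, ← hw, map_sub, hs0, sub_zero]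
  exact (Submodule.Quotient.mk_eq_zero S).mp h1

end Sep

section Free

variable {p : ℕ} [hp : Fact p.Prime] {K : Type*} [AddCommGroup K] [Module ℤ_[p] K]
  [Module.Free ℤ_[p] K] [Module.Finite ℤ_[p] K]

/-- an endomorphism all of whose values are divisible by `p^n` is divisible by `p^n` -/
theorem mze2_end_dvd_of_pointwise {K' : Type*} [AddCommGroup K'] [Module ℤ_[p] K']
    [Module.IsTorsionFree ℤ_[p] K'] (X : K →ₗ[ℤ_[p]] K') (n : ℕ)
    (h : ∀ v : K, ∃ w : K', X v = (p : ℤ_[p]) ^ n • w) :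
    ∃ W : K →ₗ[ℤ_[p]] K', X = (p : ℤ_[p]) ^ n • W := by
  classical
  set b := Module.finBasis ℤ_[p] K with hb
  choose w hw using fun i => h (b i)
  refine ⟨b.constr ℤ_[p] w, ?_⟩
  apply b.ext
  intro i
  rw [LinearMap.smul_apply, Module.Basis.constr_basis, hw]

/-- **completeness** of a free `ℤ_p`-module of finite rank -/
theorem mze2_exists_limit (x : ℕ → K)
    (h : ∀ k : ℕ, ∃ w : K, x (k + 1) - x k = (p : ℤ_[p]) ^ k • w) :
    ∃ L : K, ∀ k : ℕ, ∃ w : K, L - x k = (p : ℤ_[p]) ^ k • w := by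
  classical
  set b := Module.finBasis ℤ_[p] K with hb
  -- the coordinates converge
  have hcoord : ∀ i, ∃ Li : ℤ_[p], ∀ k : ℕ, ∃ c : ℤ_[p], Li - b.repr (x k) i = (p : ℤ_[p]) ^ k * c := by
    intro i
    have hstep : ∀ k : ℕ, ∃ c : ℤ_[p], b.repr (x (k + 1)) i - b.repr (x k) i = (p : ℤ_[p]) ^ k * c := by
      intro k
      obtain ⟨w, hw⟩ := h k
      refine ⟨b.repr w i, ?_⟩
      have := congrArg (fun z => b.repr z i) hw
      simpa only [map_sub, Finsupp.sub_apply, map_smul, Finsupp.smul_apply, smul_eq_mul] using this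
    have hall : ∀ m n : ℕ, m ≤ n → ∃ c : ℤ_[p], b.repr (x n) i - b.repr (x m) i = (p : ℤ_[p]) ^ m * c := by
      intro m n hmn
      induction n, hmn using Nat.le_induction with
      | base => exact ⟨0, by rw [sub_self, mul_zero]⟩
      | succ n hn ih =>
        obtain ⟨c, hc⟩ := ih
        obtain ⟨d, hd⟩ := hstep n
        obtain ⟨j, rfl⟩ := Nat.exists_eq_add_of_le hn
        refine ⟨c + (p : ℤ_[p]) ^ j * d, ?_⟩
        rw [mul_add, ← hc, ← mul_assoc, ← pow_add, ← hd]
        ring
    have hprec := (inferInstance : IsAdicComplete (IsLocalRing.maximalIdeal ℤ_[p]) ℤ_[p]).toIsPrecomplete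
    obtain ⟨Li, hLi⟩ := hprec.prec' (fun k => b.repr (x k) i) (by
      intro m n hmn
      rw [SModEq.sub_mem]
      obtain ⟨c, hc⟩ := hall m n hmn
      have h1 : b.repr (x m) i - b.repr (x n) i = (p : ℤ_[p]) ^ m * (-c) := by
        rw [mul_neg, ← hc]
        ring
      show b.repr (x m) i - b.repr (x n) i ∈ _
      rw [h1, PadicInt.maximalIdeal_eq_span_p, Ideal.span_singleton_pow]
      refine Submodule.smul_mem_smul (Ideal.mem_span_singleton_self _) Submodule.mem_top)
    refine ⟨Li, fun k => ?_⟩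
    have h1 := hLi k
    rw [SModEq.sub_mem, PadicInt.maximalIdeal_eq_span_p, Ideal.span_singleton_pow, smul_eq_mul,
      Ideal.mul_top, Ideal.mem_span_singleton] at h1
    obtain ⟨c, hc⟩ := h1
    refine ⟨-c, ?_⟩
    have h2 : Li - b.repr (x k) i = -(b.repr (x k) i - Li) := by ring
    rw [h2, hc, mul_neg]
  choose Lc hLc using hcoord
  choose c hc using hLc
  refine ⟨∑ i, Lc i • b i, fun k => ⟨∑ i, c i k • b i, ?_⟩⟩
  apply b.repr.injective
  ext i
  rw [map_sub, Finsupp.sub_apply, Module.Basis.repr_sum_self, map_smul, Finsupp.smul_apply,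
    Module.Basis.repr_sum_self, hc i k, smul_eq_mul]

/-- **completeness** of the endomorphism ring, pointwise form -/
theorem mze2_exists_limit_end (E : ℕ → Module.End ℤ_[p] K)
    (h : ∀ (k : ℕ) (v : K), ∃ w : K, E (k + 1) v - E k v = (p : ℤ_[p]) ^ k • w) :
    ∃ L : Module.End ℤ_[p] K, ∀ k : ℕ, ∃ W : Module.End ℤ_[p] K,
      L - E k = (p : ℤ_[p]) ^ k • W := by
  have h1 : ∀ k : ℕ, ∃ W : Module.End ℤ_[p] K, E (k + 1) - E k = (p : ℤ_[p]) ^ k • W := by
    intro k
    exact mze2_end_dvd_of_pointwise (E (k + 1) - E k) k (fun v => by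
      rw [LinearMap.sub_apply]
      exact h k v)
  exact mze2_exists_limit E h1

end Free

end Fermat.Agent.Mazur
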