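/-
MAZUR (Track M), package (E2) (helper1), part 6: **the generalised Eichler–Shimura relation (CH) for
every element of `G_ℚ`, and the trace identity (★)**.

`K` a free `ℤ_p`-module of finite rank, `gal : G_ℚ →* End K`, `𝒜 ≤ End K` a `ℤ_p`-submodule.
* `mze2_exists_frob_agree` : Chebotarev, approximation form (a Frobenius element at a prime outside
  a finite set agreeing with a given `σ` on a given finite extension);
* `mze2_CH` : if `gal` is continuous and `gal φ² - t gal φ + ℓ = 0`, `t ∈ 𝒜`, for the Frobenius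
  elements at almost all primes `ℓ`, then `gal g + ε(g) gal g⁻¹ ∈ 𝒜` for EVERY `g`;
* `mze2_star` : if moreover `𝒜` is a subalgebra commuting with `gal` and `tr (a ∘ gal c) = 0` on `𝒜`
  for an involution `c` with `ε(c) = -1`, then `tr (a gal g) = ε(g) tr (a gal g⁻¹)`.
-/
import Mathlib
import Fermat.Agent.Lib.S58.Cheb
import Fermat.Agent.Lib.DS.Final.Glue
import Fermat.Agent.Lib.Mazur.E2.Krull
import Fermat.Agent.Lib.Mazur.E2.Cyclo

set_option autoImplicit false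
set_option linter.style.haveILetI false
set_option linter.unusedSectionVars false

namespace Fermat.Agent.Mazur

local notation "Qb" => AlgebraicClosure ℚ
local notation "GQ" => (AlgebraicClosure ℚ ≃ₐ[ℚ] AlgebraicClosure ℚ)

/-- **Chebotarev, approximation form** -/
theorem mze2_exists_frob_agree (L : IntermediateField ℚ Qb) (hL : FiniteDimensional ℚ L)
    (T : Finset ℕ) (σ : GQ) :
    ∃ l : ℕ, l.Prime ∧ l ∉ T ∧ ∃ (A : ValuationSubring Qb) (φ : GQ),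
      A.LiesOverPrime l ∧ A.IsFrobeniusAt φ l ∧ ∀ x ∈ L, φ x = σ x := by
  obtain ⟨L', hL'fin, hL'norm, hLL', -⟩ := Fermat.Agent.DS.dsf_exists_normal_level L L hL hL
  haveI := hL'fin
  haveI := hL'norm
  set ρ : GQ →* (↥L' ≃ₐ[ℚ] ↥L') := AlgEquiv.restrictNormalHom (F := ℚ) (K₁ := Qb) ↥L' with hρ
  have hcomm : ∀ (τ : GQ) (x : Qb) (hx : x ∈ L'), ((ρ τ ⟨x, hx⟩ : ↥L') : Qb) = τ x := by
    intro τ x hx
    exact AlgEquiv.restrictNormal_commutes τ ↥L' ⟨x, hx⟩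
  have hlev : GaloisFactorsThroughFiniteLevel ρ := by
    refine ⟨L', hL'fin, fun τ hτ => ?_⟩
    apply AlgEquiv.ext
    rintro ⟨x, hx⟩
    apply Subtype.ext
    rw [hcomm τ x hx, hτ x hx]
    rfl
  obtain ⟨l, hl, hlT, A, φ, hA, hφ, h⟩ := Fermat.Agent.S58.s58c_exists_frob ρ hlev T σ
  refine ⟨l, hl, hlT, A, φ, hA, hφ, fun x hx => ?_⟩
  rw [← hcomm φ x (hLL' hx), ← hcomm σ x (hLL' hx), h]

section CH

variable {p : ℕ} [hp : Fact p.Prime] {K : Type*} [AddCommGroup K] [Module ℤ_[p] K]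
  [Module.Free ℤ_[p] K] [Module.Finite ℤ_[p] K]
  (gal : GQ →* Module.End ℤ_[p] K) (𝒜 : Submodule ℤ_[p] (Module.End ℤ_[p] K))

/-- an automorphism fixing a level of `gal mod p^n` acts trivially modulo `p^n`, operator form -/
theorem mze2_gal_sub_one_dvd (n : ℕ) (σ : GQ)
    (h : ∀ v : K, ∃ w : K, gal σ v - v = (p : ℤ_[p]) ^ n • w) :
    ∃ W : Module.End ℤ_[p] K, gal σ - 1 = (p : ℤ_[p]) ^ n • W :=
  mze2_end_dvd_of_pointwise (gal σ - 1) n (fun v => by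
    rw [LinearMap.sub_apply, Module.End.one_apply]
    exact h v)

/-- **(CH)**: the generalised Eichler–Shimura relation for every `g ∈ G_ℚ` -/
theorem mze2_CH
    (hcont : ∀ n : ℕ, ∃ L : IntermediateField ℚ Qb, FiniteDimensional ℚ L ∧
      ∀ σ : GQ, (∀ x ∈ L, σ x = x) → ∀ v : K, ∃ w : K, gal σ v - v = (p : ℤ_[p]) ^ n • w)
    (T : Finset ℕ)
    (hES : ∀ l : ℕ, l.Prime → l ∉ T → ∀ (A : ValuationSubring Qb) (φ : GQ),
      A.LiesOverPrime l → A.IsFrobeniusAt φ l →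
      ∃ t ∈ 𝒜, gal φ * gal φ - t * gal φ + (l : ℤ_[p]) • (1 : Module.End ℤ_[p] K) = 0)
    (g : GQ) :
    gal g + ((mze2Eps p g : ℤ_[p]ˣ) : ℤ_[p]) • gal g⁻¹ ∈ 𝒜 := by
  classical
  apply mze2_mem_of_forall_approx (p := p) 𝒜
  intro n
  obtain ⟨L₁, hL₁, h₁⟩ := hcont n
  obtain ⟨L₂, hL₂, h₂⟩ := mze2Eps_exists_level p n
  haveI := hL₁
  haveI := hL₂
  obtain ⟨l, hl, hlT, A, φ, hA, hφ, hagree⟩ := mze2_exists_frob_agree (L₁ ⊔ L₂)
    (IntermediateField.finiteDimensional_sup L₁ L₂) (insert p T) g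
  rw [Finset.mem_insert, not_or] at hlT
  obtain ⟨hlp, hlT⟩ := hlT
  have hcop : Nat.Coprime p l := (Nat.coprime_primes hp.out hl).mpr (Ne.symm hlp)
  obtain ⟨t, ht, hES'⟩ := hES l hl hlT A φ hA hφ
  refine ⟨t, ht, ?_⟩
  -- `σ = g⁻¹ φ` fixes the level
  set σ : GQ := g⁻¹ * φ with hσ
  have hσfix : ∀ x ∈ L₁ ⊔ L₂, σ x = x := by
    intro x hx
    rw [hσ, AlgEquiv.mul_apply, hagree x hx]
    exact g.symm_apply_apply x
  have hσinvfix : ∀ x ∈ L₁ ⊔ L₂, σ⁻¹ x = x := by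
    intro x hx
    have := hσfix x hx
    calc σ⁻¹ x = σ⁻¹ (σ x) := by rw [this]
      _ = x := σ.symm_apply_apply x
  have hφ_eq : φ = g * σ := by rw [hσ, mul_inv_cancel_left]
  have hφinv_eq : φ⁻¹ = σ⁻¹ * g⁻¹ := by rw [hφ_eq, mul_inv_rev]
  obtain ⟨W₁, hW₁⟩ := mze2_gal_sub_one_dvd gal n σ
    (h₁ σ fun x hx => hσfix x ((le_sup_left : L₁ ≤ L₁ ⊔ L₂) hx))
  obtain ⟨W₂, hW₂⟩ := mze2_gal_sub_one_dvd gal n σ⁻¹
    (h₁ σ⁻¹ fun x hx => hσinvfix x ((le_sup_left : L₁ ≤ L₁ ⊔ L₂) hx))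
  obtain ⟨c, hc⟩ := h₂ σ fun x hx => hσfix x ((le_sup_right : L₂ ≤ L₁ ⊔ L₂) hx)
  -- `ε(φ) = l`
  have hεφ : ((mze2Eps p φ : ℤ_[p]ˣ) : ℤ_[p]) = (l : ℤ_[p]) := mze2Eps_frob p hcop hA hφ
  have hεmul : (l : ℤ_[p]) = ((mze2Eps p g : ℤ_[p]ˣ) : ℤ_[p]) * ((mze2Eps p σ : ℤ_[p]ˣ) : ℤ_[p]) := by
    rw [← hεφ, hφ_eq, map_mul, Units.val_mul]
  -- `t = gal φ + l • gal φ⁻¹`
  have hφφ : gal φ * gal φ⁻¹ = 1 := by rw [← map_mul, mul_inv_cancel, map_one]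
  have ht_eq : t = gal φ + (l : ℤ_[p]) • gal φ⁻¹ := by
    have h3 := congrArg (fun X => X * gal φ⁻¹) hES'
    simp only [add_mul, sub_mul, mul_assoc, hφφ, mul_one, zero_mul, smul_mul_assoc, one_mul] at h3
    rw [sub_add_eq_add_sub, sub_eq_zero] at h3
    exact h3.symm
  have hgφ : gal φ = gal g * gal σ := by rw [hφ_eq, map_mul]
  have hgφinv : gal φ⁻¹ = gal σ⁻¹ * gal g⁻¹ := by rw [hφinv_eq, map_mul]
  have e1 : gal σ = 1 + (p : ℤ_[p]) ^ n • W₁ := by rw [← hW₁]; abel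
  have e2 : gal σ⁻¹ = 1 + (p : ℤ_[p]) ^ n • W₂ := by rw [← hW₂]; abel
  have e3 : ((mze2Eps p σ : ℤ_[p]ˣ) : ℤ_[p]) = 1 + (p : ℤ_[p]) ^ n * c := by rw [← hc]; ring
  refine (mze2_end_dvd_of_pointwise _ n (fun v => ?_)).imp fun W hW => hW
  refine ⟨-(gal g (W₁ v)) - (((mze2Eps p g : ℤ_[p]ˣ) : ℤ_[p]) * c) • gal g⁻¹ v
    - (l : ℤ_[p]) • W₂ (gal g⁻¹ v), ?_⟩
  rw [ht_eq, hgφ, hgφinv, e1, e2, hεmul, e3]
  simp only [LinearMap.sub_apply, LinearMap.add_apply, LinearMap.smul_apply, Module.End.mul_apply,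
    Module.End.one_apply, map_add, map_smul, smul_add, smul_sub, smul_neg, add_smul, mul_smul,
    one_smul]
  module

end CH

section Star

variable {p : ℕ} [hp : Fact p.Prime] {K : Type*} [AddCommGroup K] [Module ℤ_[p] K]
  [Module.Free ℤ_[p] K] [Module.Finite ℤ_[p] K]
  {G : Type*} [Group G] (gal : G →* Module.End ℤ_[p] K) (ε : G →* ℤ_[p]ˣ)
  (𝒜 : Subalgebra ℤ_[p] (Module.End ℤ_[p] K))

/-- **(★)**: `tr (a gal g) = ε(g) tr (a gal g⁻¹)` for `a ∈ 𝒜` -/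
theorem mze2_star
    (hcomm : ∀ a ∈ 𝒜, ∀ σ : G, a * gal σ = gal σ * a)
    (hCH : ∀ g : G, gal g + ((ε g : ℤ_[p]ˣ) : ℤ_[p]) • gal g⁻¹ ∈ 𝒜)
    (c : G) (hcc : c * c = 1) (hεc : ((ε c : ℤ_[p]ˣ) : ℤ_[p]) = -1)
    (htr : ∀ a ∈ 𝒜, LinearMap.trace ℤ_[p] K (a * gal c) = 0)
    (a : Module.End ℤ_[p] K) (ha : a ∈ 𝒜) (g : G) :
    LinearMap.trace ℤ_[p] K (a * gal g)
      = ((ε g : ℤ_[p]ˣ) : ℤ_[p]) * LinearMap.trace ℤ_[p] K (a * gal g⁻¹) := by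
  have hy := htr _ (𝒜.mul_mem ha (hCH (c * g)))
  have hgc : gal c * gal c = 1 := by rw [← map_mul, hcc, map_one]
  have h1 : gal (c * g)⁻¹ * gal c = gal g⁻¹ := by
    rw [← map_mul, mul_inv_rev, inv_mul_cancel_right]
  have h2 : LinearMap.trace ℤ_[p] K (a * gal (c * g) * gal c)
      = LinearMap.trace ℤ_[p] K (a * gal g) := by
    have h4 : a * gal (c * g) * gal c = gal c * (a * gal g * gal c) := by
      rw [MonoidHom.map_mul gal c g, ← mul_assoc a, hcomm a ha c]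
      simp only [mul_assoc]
    rw [h4, LinearMap.trace_mul_comm, mul_assoc, hgc, mul_one]
  have h3 : ((ε (c * g) : ℤ_[p]ˣ) : ℤ_[p]) = -((ε g : ℤ_[p]ˣ) : ℤ_[p]) := by
    rw [map_mul, Units.val_mul, hεc, neg_one_mul]
  rw [mul_add, add_mul, map_add, h2, mul_smul_comm, smul_mul_assoc, mul_assoc, h1, map_smul, h3,
    smul_eq_mul, neg_mul] at hy
  rw [← sub_eq_zero, sub_eq_add_neg]
  exact hy

end Star

end Fermat.Agent.Mazur
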