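/-
MAZUR (Track M), package (E2) (helper1), part 1: **traces, ranks and eigenvalues over a principal
ideal domain of characteristic zero** (pure linear algebra, `import Mathlib` only).

* `mze2_trace_eq_mul_finrank` : an endomorphism `F` of a finite free module with image in a
  submodule `W` on which it acts as the scalar `u` has trace `u * rank W`;
* `mze2_trace_aeval` : `tr (q(f))` is the corresponding combination of the power traces `tr (f^n)`;
* `mze2_not_hasEigenvalue_of_trace_pow` (**spectral transfer**): if two endomorphisms `f₁, f₂` of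
  finite free modules over a PID of characteristic zero have the same power traces
  `tr (f₁^n) = tr (f₂^n)` (all `n ≥ 0`) and `c` is not an eigenvalue of `f₂`, then `c` is not an
  eigenvalue of `f₁`.  (No Newton identities: a quasi-idempotent polynomial in `f₁` with trace `0`
  vanishes.)
-/
import Mathlib

set_option autoImplicit false
set_option linter.style.haveILetI false
set_option linter.unusedSectionVars false

open Polynomial

namespace Fermat.Agent.Mazur

section RankTrace

variable {R : Type*} [CommRing R] {M : Type*} [AddCommGroup M] [Module R M] [Module.Free R M]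
  [Module.Finite R M]

/-- **rank–trace lemma** -/
theorem mze2_trace_eq_mul_finrank (F : Module.End R M) (W : Submodule R M) [Module.Free R W]
    [Module.Finite R W] (u : R) (hF : ∀ x, F x ∈ W) (hW : ∀ w ∈ W, F w = u • w) :
    LinearMap.trace R M F = u * (Module.finrank R W : R) := by
  set F' : M →ₗ[R] W := F.codRestrict W hF with hF'
  have h1 : F = W.subtype ∘ₗ F' := by
    ext x
    rfl
  have h2 : F' ∘ₗ W.subtype = u • (LinearMap.id : W →ₗ[R] W) := by
    ext w
    show F (w : M) = ((u • (LinearMap.id : W →ₗ[R] W)) w : M)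
    rw [hW w w.2]
    rfl
  rw [h1, LinearMap.trace_comp_comm', h2, map_smul, LinearMap.trace_id, smul_eq_mul]

/-- the trace of a polynomial in `f` in terms of the power traces -/
theorem mze2_trace_aeval (f : Module.End R M) (q : R[X]) :
    LinearMap.trace R M (aeval f q) =
      ∑ i ∈ Finset.range (q.natDegree + 1), q.coeff i * LinearMap.trace R M (f ^ i) := by
  rw [aeval_eq_sum_range, map_sum]
  refine Finset.sum_congr rfl fun i _ => ?_
  rw [map_smul, smul_eq_mul]

/-- two endomorphisms with the same power traces have the same polynomial traces -/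
theorem mze2_trace_aeval_congr {M' : Type*} [AddCommGroup M'] [Module R M'] [Module.Free R M']
    [Module.Finite R M'] (f : Module.End R M) (f' : Module.End R M')
    (h : ∀ n : ℕ, LinearMap.trace R M (f ^ n) = LinearMap.trace R M' (f' ^ n)) (q : R[X]) :
    LinearMap.trace R M (aeval f q) = LinearMap.trace R M' (aeval f' q) := by
  rw [mze2_trace_aeval, mze2_trace_aeval]
  refine Finset.sum_congr rfl fun i _ => ?_
  rw [h i]

end RankTrace

section Spectral

variable {R : Type*} [CommRing R] [IsDomain R] [IsPrincipalIdealRing R] [CharZero R]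
  {M₁ : Type*} [AddCommGroup M₁] [Module R M₁] [Module.Free R M₁] [Module.Finite R M₁]
  {M₂ : Type*} [AddCommGroup M₂] [Module R M₂] [Module.Free R M₂] [Module.Finite R M₂]

/-- Bezout up to a scalar: `h(c)^s = a * (X - c)^s + b * h` -/
theorem mze2_exists_bezout (h : R[X]) (c : R) (s : ℕ) :
    ∃ a b : R[X], a * (X - C c) ^ s + b * h = C (h.eval c ^ s) := by
  -- `h = (X - c) h' + h(c)`
  set h' := h /ₘ (X - C c) with hh'
  have h1 : h = (X - C c) * h' + C (h.eval c) := by
    have := modByMonic_add_div h (X - C c)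
    rw [modByMonic_X_sub_C_eq_C_eval] at this
    rw [add_comm]
    exact this.symm
  have h2 : C (h.eval c) = h - (X - C c) * h' := by
    rw [eq_sub_iff_add_eq, add_comm]
    exact h1.symm
  -- `(h - (X - c) h')^s ≡ (-(X - c) h')^s mod h`
  have h3 : ∀ s : ℕ, ∃ b : R[X], (h - (X - C c) * h') ^ s = (-((X - C c) * h')) ^ s + b * h := by
    intro s
    induction s with
    | zero => exact ⟨0, by simp⟩
    | succ s ih =>
      obtain ⟨b, hb⟩ := ih
      refine ⟨b * (h - (X - C c) * h') + (-((X - C c) * h')) ^ s, ?_⟩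
      rw [pow_succ, hb, pow_succ]
      ring
  obtain ⟨b, hb⟩ := h3 s
  refine ⟨(-h') ^ s, b, ?_⟩
  rw [map_pow, h2, hb, neg_mul_eq_mul_neg, mul_pow]
  ring

/-- **spectral transfer** -/
theorem mze2_not_hasEigenvalue_of_trace_pow (f₁ : Module.End R M₁) (f₂ : Module.End R M₂)
    (h : ∀ n : ℕ, LinearMap.trace R M₁ (f₁ ^ n) = LinearMap.trace R M₂ (f₂ ^ n)) (c : R)
    (h₂ : ¬ f₂.HasEigenvalue c) : ¬ f₁.HasEigenvalue c := by
  intro h₁
  have hint₁ : IsIntegral R f₁ := Algebra.IsIntegral.isIntegral f₁
  have hint₂ : IsIntegral R f₂ := Algebra.IsIntegral.isIntegral f₂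
  set μ₁ := minpoly R f₁ with hμ₁
  set μ₂ := minpoly R f₂ with hμ₂
  have hμ₂c : μ₂.eval c ≠ 0 := fun h0 =>
    h₂ (Module.End.hasEigenvalue_iff_isRoot.mpr h0)
  have hμ₁0 : μ₁ ≠ 0 := minpoly.ne_zero hint₁
  set s := rootMultiplicity c μ₁ with hs
  set ν := μ₁ /ₘ (X - C c) ^ s with hν
  have hfac : (X - C c) ^ s * ν = μ₁ := pow_mul_divByMonic_rootMultiplicity_eq μ₁ c
  have hνc : ν.eval c ≠ 0 := eval_divByMonic_pow_rootMultiplicity_ne_zero c hμ₁0
  have hs1 : 1 ≤ s := by
    have hroot : μ₁.IsRoot c := Module.End.hasEigenvalue_iff_isRoot.mp h₁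
    exact (rootMultiplicity_pos hμ₁0).mpr hroot
  -- Bezout for `(X - c)^s` and `ν μ₂`
  obtain ⟨a, b, hab⟩ := mze2_exists_bezout (ν * μ₂) c s
  set d : R := (ν * μ₂).eval c ^ s with hd
  have hd0 : d ≠ 0 := by
    rw [hd, eval_mul]
    exact pow_ne_zero _ (mul_ne_zero hνc hμ₂c)
  obtain ⟨q, hq⟩ : ∃ q : R[X], q = b * (ν * μ₂) := ⟨_, rfl⟩
  rw [← hq] at hab
  obtain ⟨E, hE⟩ : ∃ E : Module.End R M₁, E = aeval f₁ q := ⟨_, rfl⟩
  -- `E` is quasi-idempotent
  have hquasi : E * E = d • E := by
    have h1 : q * q - C d * q = -(a * b * μ₂) * μ₁ := by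
      have h2 : q - C d = -(a * (X - C c) ^ s) := by
        rw [← hab, hq]
        ring
      have h3 : q * q - C d * q = q * (q - C d) := by ring
      rw [h3, h2, hq, ← hfac]
      ring
    have h4 : aeval f₁ (q * q - C d * q) = 0 := by
      rw [h1, map_mul, hμ₁, minpoly.aeval, mul_zero]
    rw [map_sub, map_mul, map_mul, aeval_C, sub_eq_zero, ← hE] at h4
    rw [h4, Algebra.algebraMap_eq_smul_one, smul_mul_assoc, one_mul]
  -- its trace vanishes
  have htr : LinearMap.trace R M₁ E = 0 := by
    rw [hE, mze2_trace_aeval_congr f₁ f₂ h q, hq, ← mul_assoc, map_mul, hμ₂, minpoly.aeval,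
      mul_zero, map_zero]
  -- hence its range vanishes
  have hrank : (d : R) * (Module.finrank R (LinearMap.range E) : R) = 0 := by
    rw [← htr]
    refine (mze2_trace_eq_mul_finrank E (LinearMap.range E) d (fun x => ⟨x, rfl⟩) ?_).symm
    rintro w ⟨x, rfl⟩
    have := LinearMap.congr_fun hquasi x
    exact this
  have hrank0 : Module.finrank R (LinearMap.range E) = 0 := by
    rcases mul_eq_zero.mp hrank with h0 | h0
    · exact absurd h0 hd0
    · exact_mod_cast h0
  have hE0 : E = 0 := by
    rw [Module.finrank_eq_zero_iff_of_free, Submodule.subsingleton_iff_eq_bot,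
      LinearMap.range_eq_bot] at hrank0
    exact hrank0
  -- but `E` is `d` on an eigenvector
  obtain ⟨v, hv⟩ := h₁.exists_hasEigenvector
  have h5 : E v = q.eval c • v := by
    rw [hE]
    exact Module.End.aeval_apply_of_hasEigenvector hv
  have h6 : q.eval c = d := by
    have h7 := congrArg (eval c) hab
    rw [eval_add, eval_mul, eval_pow, eval_sub, eval_X, eval_C, sub_self, zero_pow (by omega),
      mul_zero, zero_add, eval_C] at h7
    exact h7
  rw [hE0, LinearMap.zero_apply, h6] at h5
  exact hv.2 ((smul_eq_zero.mp h5.symm).resolve_left hd0)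

end Spectral

end Fermat.Agent.Mazur
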