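/-
MAZUR (Track M), package (E2) (helper1), part 2: **the two abstract cores** (linear algebra over a PID
`R` of characteristic zero, `R = ℤ_P`; `import` only `Spectral.lean`).

`M` a finite free `R`-module (the Eisenstein part `e T` of the Tate module), `I` an endomorphism (an
element `i₀` of the inertia group at `𝔓`) with `(I - lam)(I - 1) = 0`, `u := lam - 1 ≠ 0`
(`lam = ε(i₀)`), `Kl := ker (I - lam)` (the connected part), `K1 := ker (I - 1)`.

* `mze2_alpha_core` : if `2 tr I = (1 + lam) rank M` (trace identity for `i₀`), then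
  `2 rank Kl = rank M` and `2 rank K1 = rank M`;
* `mze2_w_core` : let `φ` be an automorphism (inverse `φ'`) preserving `Kl`, `ε ≠ 0`, with
  `tr (φ^n (I - 1)) = ε^n tr ((lam - I) φ'^n)` for all `n ≥ 1` (trace identity for `φ^n`, `φ^n i₀`),
  `rank Kl = rank K1`, and `φ - 1` injective on `M / Kl`.  Then `φ - ε` is injective on `Kl`.
-/
import Fermat.Agent.Lib.Mazur.E2.Spectral

set_option autoImplicit false
set_option linter.style.haveILetI false
set_option linter.unusedSectionVars false

namespace Fermat.Agent.Mazur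

section Core

variable {R : Type*} [CommRing R] [IsDomain R] [IsPrincipalIdealRing R] [CharZero R]
  {M : Type*} [AddCommGroup M] [Module R M] [Module.Free R M] [Module.Finite R M]

/-- the `lam`-eigenspace -/
def mze2K (I : Module.End R M) (lam : R) : Submodule R M :=
  LinearMap.ker (I - lam • (1 : Module.End R M))

theorem mem_mze2K {I : Module.End R M} {lam : R} {x : M} : x ∈ mze2K I lam ↔ I x = lam • x := by
  unfold mze2K
  rw [LinearMap.mem_ker, LinearMap.sub_apply, LinearMap.smul_apply, Module.End.one_apply,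
    sub_eq_zero]

variable (I : Module.End R M) (lam : R)
  (hI : ∀ x, I (I x) - (1 + lam) • I x + lam • x = 0)

include hI in
theorem mze2_sub_one_mem (x : M) : I x - x ∈ mze2K I lam := by
  rw [mem_mze2K, map_sub, sub_eq_iff_eq_add]
  have := hI x
  have h2 : I (I x) = (1 + lam) • I x - lam • x := by
    rw [eq_sub_iff_add_eq]
    rw [sub_add_eq_add_sub, sub_eq_zero] at this
    exact this
  rw [h2, smul_sub, add_smul, one_smul]
  abel

include hI in
theorem mze2_sub_lam_mem (x : M) : I x - lam • x ∈ mze2K I 1 := by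
  rw [mem_mze2K, one_smul, map_sub, map_smul]
  have := hI x
  have h2 : I (I x) = (1 + lam) • I x - lam • x := by
    rw [eq_sub_iff_add_eq]
    rw [sub_add_eq_add_sub, sub_eq_zero] at this
    exact this
  rw [h2, add_smul, one_smul]
  abel

include hI in
/-- **the `α`-core** -/
theorem mze2_alpha_core (hu : lam - 1 ≠ 0)
    (htr : 2 * LinearMap.trace R M I = (1 + lam) * (Module.finrank R M : R)) :
    2 * Module.finrank R (mze2K I lam) = Module.finrank R M ∧
      2 * Module.finrank R (mze2K I (1 : R)) = Module.finrank R M := by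
  have hA : LinearMap.trace R M (I - 1) = (lam - 1) * (Module.finrank R (mze2K I lam) : R) := by
    refine mze2_trace_eq_mul_finrank (I - 1) (mze2K I lam) (lam - 1) (fun x => ?_) (fun w hw => ?_)
    · rw [LinearMap.sub_apply, Module.End.one_apply]
      exact mze2_sub_one_mem I lam hI x
    · rw [LinearMap.sub_apply, Module.End.one_apply, mem_mze2K.mp hw, sub_smul, one_smul]
  have hB : LinearMap.trace R M (I - lam • (1 : Module.End R M))
      = (1 - lam) * (Module.finrank R (mze2K I (1 : R)) : R) := by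
    refine mze2_trace_eq_mul_finrank (I - lam • (1 : Module.End R M)) (mze2K I (1 : R)) (1 - lam)
      (fun x => ?_) (fun w hw => ?_)
    · rw [LinearMap.sub_apply, LinearMap.smul_apply, Module.End.one_apply]
      exact mze2_sub_lam_mem I lam hI x
    · rw [LinearMap.sub_apply, LinearMap.smul_apply, Module.End.one_apply, mem_mze2K.mp hw,
        one_smul, sub_smul, one_smul]
  have h1 : LinearMap.trace R M (1 : Module.End R M) = (Module.finrank R M : R) :=
    LinearMap.trace_id R M
  rw [map_sub, h1] at hA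
  rw [map_sub, map_smul, h1, smul_eq_mul] at hB
  constructor
  · have h2 : (lam - 1) * ((2 * Module.finrank R (mze2K I lam) : ℕ) : R)
        = (lam - 1) * (Module.finrank R M : R) := by
      push_cast
      linear_combination 2 * hA.symm + htr
    exact_mod_cast mul_left_cancel₀ hu h2
  · have h2 : (lam - 1) * ((2 * Module.finrank R (mze2K I (1 : R)) : ℕ) : R)
        = (lam - 1) * (Module.finrank R M : R) := by
      push_cast
      linear_combination (-2) * hB.symm - htr
    exact_mod_cast mul_left_cancel₀ hu h2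

/-! ### The `w`-core -/

variable (φ φ' : Module.End R M) (hφφ' : φ * φ' = 1) (hφ'φ : φ' * φ = 1)
  (hφK : ∀ x ∈ mze2K I lam, φ x ∈ mze2K I lam) (hφ'K : ∀ x ∈ mze2K I lam, φ' x ∈ mze2K I lam)

/-- `P₁ = lam - I` as a map into `K1` -/
def mze2P1 : M →ₗ[R] mze2K I (1 : R) :=
  (lam • (1 : Module.End R M) - I).codRestrict (mze2K I (1 : R)) (fun x => by
    have h := mze2_sub_lam_mem I lam hI x
    rw [LinearMap.sub_apply, LinearMap.smul_apply, Module.End.one_apply]
    have h2 : lam • x - I x = -(I x - lam • x) := by abel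
    rw [h2]
    exact (mze2K I (1 : R)).neg_mem h)

theorem mze2P1_coe (x : M) : ((mze2P1 I lam hI x : mze2K I (1 : R)) : M) = lam • x - I x := rfl

theorem mze2P1_of_mem_Kl {x : M} (hx : x ∈ mze2K I lam) : mze2P1 I lam hI x = 0 := by
  apply Subtype.ext
  rw [mze2P1_coe, mem_mze2K.mp hx, sub_self]
  rfl

theorem mze2P1_of_mem_K1 (y : mze2K I (1 : R)) : mze2P1 I lam hI (y : M) = (lam - 1) • y := by
  apply Subtype.ext
  have h := mem_mze2K.mp y.2
  rw [one_smul] at h
  rw [mze2P1_coe, h, Submodule.coe_smul, sub_smul, one_smul]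

/-- the transported action of `φ⁻¹` on `K1 ≈ M / Kl` (scaled by `u`) -/
def mze2Psi : Module.End R (mze2K I (1 : R)) :=
  mze2P1 I lam hI ∘ₗ φ' ∘ₗ (mze2K I (1 : R)).subtype

theorem mze2Psi_apply (y : mze2K I (1 : R)) :
    mze2Psi I lam hI φ' y = mze2P1 I lam hI (φ' (y : M)) := rfl

include hφ'K in
/-- `Ψ^(n+1) = u^n • P₁ φ'^(n+1)` on `K1` -/
theorem mze2Psi_pow (n : ℕ) (y : mze2K I (1 : R)) :
    (mze2Psi I lam hI φ' ^ (n + 1)) y
      = (lam - 1) ^ n • mze2P1 I lam hI ((φ' ^ (n + 1)) (y : M)) := by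
  induction n generalizing y with
  | zero => rw [pow_zero, one_smul, zero_add, pow_one, pow_one, mze2Psi_apply]
  | succ n ih =>
    rw [pow_succ', Module.End.mul_apply, ih, map_smul, mze2Psi_apply]
    -- `P₁ z = u z - (I z - z)` with `I z - z ∈ Kl`
    set z := (φ' ^ (n + 1)) (y : M) with hz
    have h1 : ((mze2P1 I lam hI z : mze2K I (1 : R)) : M) = (lam - 1) • z - (I z - z) := by
      rw [mze2P1_coe, sub_smul, one_smul]
      abel
    have h2 : mze2P1 I lam hI (φ' ((mze2P1 I lam hI z : mze2K I (1 : R)) : M))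
        = (lam - 1) • mze2P1 I lam hI (φ' z) := by
      rw [h1, map_sub, map_sub, map_smul, map_smul,
        mze2P1_of_mem_Kl I lam hI (hφ'K _ (mze2_sub_one_mem I lam hI z)), sub_zero]
    rw [h2, smul_smul, ← pow_succ, hz, ← Module.End.mul_apply, ← pow_succ']

include hI hφφ' hφ'φ hφK hφ'K in
/-- **the `w`-core** -/
theorem mze2_w_core (hu : lam - 1 ≠ 0) (ε : R) (hε : ε ≠ 0)
    (hrk : Module.finrank R (mze2K I lam) = Module.finrank R (mze2K I (1 : R)))
    (htrw : ∀ n : ℕ, LinearMap.trace R M (φ ^ (n + 1) * (I - 1))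
      = ε ^ (n + 1) * LinearMap.trace R M ((lam • (1 : Module.End R M) - I) * φ' ^ (n + 1)))
    (hinj : ∀ x, φ x - x ∈ mze2K I lam → x ∈ mze2K I lam)
    (x : M) (hx : x ∈ mze2K I lam) (hφx : φ x = ε • x) : x = 0 := by
  classical
  set u := lam - 1 with hu'
  set Φ₀ : Module.End R (mze2K I lam) := φ.restrict hφK with hΦ₀
  set Ψ := mze2Psi I lam hI φ' with hΨ
  have hΦ₀pow : ∀ (n : ℕ) (w : mze2K I lam), ((Φ₀ ^ n) w : M) = (φ ^ n) (w : M) := by
    intro n
    induction n with
    | zero => intro w; rfl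
    | succ n ih =>
      intro w
      rw [pow_succ', pow_succ', Module.End.mul_apply, Module.End.mul_apply, ← ih]
      rfl
  -- `tr (φ^n (I - 1)) = u tr (Φ₀^n)`
  have hT1 : ∀ n : ℕ, LinearMap.trace R M (φ ^ n * (I - 1))
      = u * LinearMap.trace R (mze2K I lam) (Φ₀ ^ n) := by
    intro n
    set A' : M →ₗ[R] mze2K I lam := (I - 1).codRestrict (mze2K I lam) (fun x => by
      rw [LinearMap.sub_apply, Module.End.one_apply]
      exact mze2_sub_one_mem I lam hI x) with hA'
    have h1 : φ ^ n * (I - 1) = (mze2K I lam).subtype ∘ₗ ((Φ₀ ^ n) ∘ₗ A') := by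
      ext y
      show (φ ^ n) ((I - 1) y) = ((Φ₀ ^ n) (A' y) : M)
      rw [hΦ₀pow]
      rfl
    have h2 : ((Φ₀ ^ n) ∘ₗ A') ∘ₗ (mze2K I lam).subtype = u • (Φ₀ ^ n) := by
      ext w
      show ((Φ₀ ^ n) (A' (w : M)) : M) = ((u • (Φ₀ ^ n)) w : M)
      have h3 : A' (w : M) = u • w := by
        apply Subtype.ext
        show (I - 1) (w : M) = ((u • w : mze2K I lam) : M)
        rw [LinearMap.sub_apply, Module.End.one_apply, mem_mze2K.mp w.2, Submodule.coe_smul,
          hu', sub_smul, one_smul]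
      rw [h3, map_smul]
      rfl
    rw [h1, LinearMap.trace_comp_comm', h2, map_smul, smul_eq_mul]
  -- `tr ((lam - I) φ'^(n+1)) = tr (P₁ φ'^(n+1) | K1)`, and `u^n` times it is `tr (Ψ^(n+1))`
  have hT2 : ∀ n : ℕ, u ^ n * LinearMap.trace R M ((lam • (1 : Module.End R M) - I) * φ' ^ (n + 1))
      = LinearMap.trace R (mze2K I (1 : R)) (Ψ ^ (n + 1)) := by
    intro n
    have h1 : (lam • (1 : Module.End R M) - I) * φ' ^ (n + 1)
        = (mze2K I (1 : R)).subtype ∘ₗ (mze2P1 I lam hI ∘ₗ (φ' ^ (n + 1))) := by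
      ext y
      rfl
    have h2 : u • ((mze2P1 I lam hI ∘ₗ (φ' ^ (n + 1))) ∘ₗ (mze2K I (1 : R)).subtype)
        = u • ((mze2P1 I lam hI ∘ₗ (φ' ^ (n + 1))) ∘ₗ (mze2K I (1 : R)).subtype) := rfl
    have h3 : Ψ ^ (n + 1)
        = u ^ n • ((mze2P1 I lam hI ∘ₗ (φ' ^ (n + 1))) ∘ₗ (mze2K I (1 : R)).subtype) := by
      ext y
      rw [hΨ, mze2Psi_pow I lam hI φ' hφ'K n y]
      rfl
    rw [h1, LinearMap.trace_comp_comm', h3, map_smul, smul_eq_mul]
  -- equality of the power traces of `u Φ₀` and `ε Ψ`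
  have hpow : ∀ n : ℕ, LinearMap.trace R (mze2K I lam) ((u • Φ₀) ^ n)
      = LinearMap.trace R (mze2K I (1 : R)) ((ε • Ψ) ^ n) := by
    intro n
    rcases n with _ | n
    · rw [pow_zero, pow_zero]
      have h1 : LinearMap.trace R (mze2K I lam) (1 : Module.End R (mze2K I lam))
          = (Module.finrank R (mze2K I lam) : R) := LinearMap.trace_id R _
      have h2 : LinearMap.trace R (mze2K I (1 : R)) (1 : Module.End R (mze2K I (1 : R)))
          = (Module.finrank R (mze2K I (1 : R)) : R) := LinearMap.trace_id R _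
      rw [h1, h2, hrk]
    · rw [smul_pow, smul_pow, map_smul, map_smul, smul_eq_mul, smul_eq_mul, ← hT2 n,
        pow_succ u n, mul_assoc, ← hT1 (n + 1), htrw n]
      ring
  -- `u ε` is not an eigenvalue of `ε Ψ`
  have hno : ¬ (ε • Ψ).HasEigenvalue (u * ε) := by
    intro hev
    obtain ⟨y, hy⟩ := hev.exists_hasEigenvector
    have h1 : (ε • Ψ) y = (u * ε) • y := hy.apply_eq_smul
    have h2 : Ψ y = u • y := by
      rw [LinearMap.smul_apply, mul_comm, mul_smul] at h1
      exact smul_right_injective _ hε h1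
    -- `z := φ' y`, `P₁ z = u y`
    set z := φ' (y : M) with hz
    have h3 : lam • z - I z = u • (y : M) := by
      have := congrArg (fun w : mze2K I (1 : R) => (w : M)) h2
      simpa [hΨ, mze2Psi_apply, mze2P1_coe] using this
    -- `u (z - y) = I z - z ∈ Kl`
    have h4 : u • (z - (y : M)) = I z - z := by
      rw [smul_sub, ← h3, hu', sub_smul, one_smul]
      abel
    have h5 : z - (y : M) ∈ mze2K I lam := by
      have h6 : u • (z - (y : M)) ∈ mze2K I lam := by
        rw [h4]
        exact mze2_sub_one_mem I lam hI z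
      rw [mem_mze2K] at h6 ⊢
      rw [map_smul, smul_comm] at h6
      exact smul_right_injective M hu h6
    -- apply `φ`
    have h7 : φ z = (y : M) := by
      rw [hz, ← Module.End.mul_apply, hφφ', Module.End.one_apply]
    have h8 : φ (y : M) - (y : M) ∈ mze2K I lam := by
      have h9 := hφK _ h5
      rw [map_sub, h7] at h9
      have h10 : φ (y : M) - (y : M) = -((y : M) - φ (y : M)) := by abel
      rw [h10]
      exact (mze2K I lam).neg_mem h9
    have h11 : (y : M) ∈ mze2K I lam := hinj _ h8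
    have h12 : u • (y : M) = 0 := by
      have e1 := mem_mze2K.mp h11
      have e2 := mem_mze2K.mp y.2
      rw [one_smul] at e2
      rw [hu', sub_smul, one_smul, ← e1, e2, sub_self]
    have h13 : (y : M) = 0 := (smul_eq_zero.mp h12).resolve_left hu
    exact hy.2 (Subtype.ext h13)
  -- spectral transfer
  have hno' := mze2_not_hasEigenvalue_of_trace_pow (u • Φ₀) (ε • Ψ) hpow (u * ε) hno
  by_contra hx0
  apply hno'
  refine Module.End.hasEigenvalue_of_hasEigenvector (x := ⟨x, hx⟩) ⟨?_, ?_⟩
  · rw [Module.End.mem_eigenspace_iff]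
    apply Subtype.ext
    show u • φ x = ((u * ε) • (⟨x, hx⟩ : mze2K I lam) : mze2K I lam)
    rw [hφx, Submodule.coe_smul, mul_smul]
  · intro h0
    exact hx0 (congrArg Subtype.val h0)

end Core

end Fermat.Agent.Mazur
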