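/-
MAZUR (Track M), package (E2) (helper1), part 3: **counting in quotients of free `ℤ_p`-modules**
(`import Mathlib` only).

`K` a free `ℤ_p`-module of finite rank `r`.
* `mze2Theta k : K →+ (Fin r → ZMod (p^k))` : reduction of the coordinates; surjective, kernel `p^k K`;
* `mze2_card_range_eq` : an additive map `h : K →+ B` with kernel exactly `p^k K` has
  `#range h = p^(k r)`;
* `mze2_card_range_le` : an additive map `h : K →+ B` killing `p^v K` has `#range h ≤ p^(v r)`;
* `mze2_card_torsion_le` : in a finite quotient `A` of `K` the `p^v`-torsion has at most `p^(v r)`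
  elements (for EVERY `v`, uniformly in `A`);
* `mze2_exists_quasi_inverse` : an injective endomorphism `f` of `K` has a quasi-inverse
  `g ∘ f = c • 1`, `c ≠ 0`.
-/
import Mathlib

set_option autoImplicit false
set_option linter.style.haveILetI false
set_option linter.unusedSectionVars false

namespace Fermat.Agent.Mazur

section Free

variable {p : ℕ} [hp : Fact p.Prime] {K : Type*} [AddCommGroup K] [Module ℤ_[p] K]
  [Module.Free ℤ_[p] K] [Module.Finite ℤ_[p] K]

/-- reduction of the coordinates modulo `p^k` -/
noncomputable def mze2Theta (k : ℕ) : K →+ (Fin (Module.finrank ℤ_[p] K) → ZMod (p ^ k)) where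
  toFun x i := PadicInt.toZModPow k ((Module.finBasis ℤ_[p] K).repr x i)
  map_zero' := by
    ext i
    simp
  map_add' x y := by
    ext i
    simp

theorem mze2Theta_apply (k : ℕ) (x : K) (i : Fin (Module.finrank ℤ_[p] K)) :
    mze2Theta k x i = PadicInt.toZModPow k ((Module.finBasis ℤ_[p] K).repr x i) := rfl

theorem mze2Theta_surjective (k : ℕ) : Function.Surjective (mze2Theta (p := p) (K := K) k) := by
  intro v
  have hs := ZMod.ringHom_surjective (PadicInt.toZModPow (p := p) k)
  choose a ha using fun i => hs (v i)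
  refine ⟨∑ i, a i • Module.finBasis ℤ_[p] K i, ?_⟩
  ext i
  rw [mze2Theta_apply, Module.Basis.repr_sum_self, ha]

theorem mze2Theta_eq_zero_iff (k : ℕ) (x : K) :
    mze2Theta (p := p) k x = 0 ↔ ∃ w : K, x = (p : ℤ_[p]) ^ k • w := by
  constructor
  · intro h
    have h1 : ∀ i, ∃ c : ℤ_[p], (Module.finBasis ℤ_[p] K).repr x i = (p : ℤ_[p]) ^ k * c := by
      intro i
      have h2 : (Module.finBasis ℤ_[p] K).repr x i ∈ RingHom.ker (PadicInt.toZModPow (p := p) k) := by
        rw [RingHom.mem_ker, ← mze2Theta_apply, h]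
        rfl
      rw [PadicInt.ker_toZModPow, Ideal.mem_span_singleton] at h2
      exact h2
    choose c hc using h1
    refine ⟨∑ i, c i • Module.finBasis ℤ_[p] K i, ?_⟩
    apply (Module.finBasis ℤ_[p] K).repr.injective
    ext i
    rw [map_smul, Finsupp.smul_apply, Module.Basis.repr_sum_self, hc i, smul_eq_mul]
  · rintro ⟨w, rfl⟩
    ext i
    rw [mze2Theta_apply, map_smul, Finsupp.smul_apply, smul_eq_mul, map_mul, map_pow]
    have h1 : PadicInt.toZModPow k ((p : ℤ_[p])) ^ k = 0 := by
      rw [← map_pow]
      have h2 : ((p : ℤ_[p]) ^ k) ∈ RingHom.ker (PadicInt.toZModPow (p := p) k) := by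
        rw [PadicInt.ker_toZModPow]
        exact Ideal.mem_span_singleton_self _
      exact h2
    rw [h1, zero_mul]
    rfl

theorem mze2_card_target (k : ℕ) :
    Nat.card (Fin (Module.finrank ℤ_[p] K) → ZMod (p ^ k)) = p ^ (k * Module.finrank ℤ_[p] K) := by
  rw [Nat.card_pi]
  simp only [Nat.card_zmod, Finset.prod_const, Finset.card_univ, Fintype.card_fin]
  rw [pow_mul]

variable {B : Type*} [AddCommGroup B]

/-- an additive map with kernel exactly `p^k K` has `p^(k r)` values -/
theorem mze2_card_range_eq (k : ℕ) (h : K →+ B)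
    (hker : ∀ x, h x = 0 ↔ ∃ w : K, x = (p : ℤ_[p]) ^ k • w) :
    Nat.card h.range = p ^ (k * Module.finrank ℤ_[p] K) := by
  have hk : h.ker = (mze2Theta (p := p) (K := K) k).ker := by
    ext x
    rw [AddMonoidHom.mem_ker, AddMonoidHom.mem_ker, hker, mze2Theta_eq_zero_iff]
  have e1 := QuotientAddGroup.quotientKerEquivRange h
  have e2 := QuotientAddGroup.quotientKerEquivOfSurjective (mze2Theta (p := p) (K := K) k)
    (mze2Theta_surjective k)
  have e3 := QuotientAddGroup.quotientAddEquivOfEq hk
  rw [← mze2_card_target (p := p) (K := K) k]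
  exact Nat.card_congr ((e1.symm.trans e3).trans e2).toEquiv

/-- an additive map killing `p^v K` has at most `p^(v r)` values -/
theorem mze2_card_range_le (v : ℕ) (h : K →+ B) (hkill : ∀ w : K, h ((p : ℤ_[p]) ^ v • w) = 0) :
    Finite h.range ∧ Nat.card h.range ≤ p ^ (v * Module.finrank ℤ_[p] K) := by
  classical
  have hθ := mze2Theta_surjective (p := p) (K := K) v
  let s : (Fin (Module.finrank ℤ_[p] K) → ZMod (p ^ v)) → h.range :=
    fun c => ⟨h (Function.surjInv hθ c), ⟨_, rfl⟩⟩
  have hs : Function.Surjective s := by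
    rintro ⟨_, x, rfl⟩
    refine ⟨mze2Theta v x, ?_⟩
    apply Subtype.ext
    show h (Function.surjInv hθ (mze2Theta v x)) = h x
    have h1 : mze2Theta (p := p) v (Function.surjInv hθ (mze2Theta v x) - x) = 0 := by
      rw [map_sub, Function.surjInv_eq hθ, sub_self]
    obtain ⟨w, hw⟩ := (mze2Theta_eq_zero_iff v _).mp h1
    have h2 : h (Function.surjInv hθ (mze2Theta v x) - x) = 0 := by rw [hw, hkill]
    rw [map_sub, sub_eq_zero] at h2
    exact h2
  haveI : NeZero (p ^ v) := ⟨pow_ne_zero _ hp.out.ne_zero⟩
  haveI : Finite (Fin (Module.finrank ℤ_[p] K) → ZMod (p ^ v)) := inferInstance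
  refine ⟨Finite.of_surjective s hs, ?_⟩
  rw [← mze2_card_target (p := p) (K := K) v]
  exact Nat.card_le_card_of_surjective s hs

end Free

section Torsion

/-- in a finite commutative group, the kernel and the cokernel of an endomorphism have the same
order -/
theorem mze2_card_ker_eq_card_quot {A : Type*} [AddCommGroup A] [Finite A] (f : A →+ A) :
    Nat.card f.ker = Nat.card (A ⧸ f.range) := by
  have h1 : Nat.card A = Nat.card f.ker * Nat.card f.range := by
    rw [← Nat.card_congr (QuotientAddGroup.quotientKerEquivRange f).toEquiv, mul_comm]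
    exact AddSubgroup.card_eq_card_quotient_mul_card_addSubgroup f.ker
  have h2 : Nat.card A = Nat.card (A ⧸ f.range) * Nat.card f.range :=
    AddSubgroup.card_eq_card_quotient_mul_card_addSubgroup f.range
  have hpos : 0 < Nat.card f.range := Nat.card_pos
  exact Nat.eq_of_mul_eq_mul_right hpos (h1.symm.trans h2)

variable {p : ℕ} [hp : Fact p.Prime] {K : Type*} [AddCommGroup K] [Module ℤ_[p] K]
  [Module.Free ℤ_[p] K] [Module.Finite ℤ_[p] K]

/-- **uniform bound for the `p^v`-torsion of a finite quotient of `K`** -/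
theorem mze2_card_torsion_le {A : Type*} [AddCommGroup A] [Finite A] (s : K →+ A)
    (hs : Function.Surjective s) (hsmul : ∀ (w : K), s ((p : ℤ_[p]) ^ 1 • w) = p • s w) (v : ℕ) :
    Nat.card {y : A // p ^ v • y = 0} ≤ p ^ (v * Module.finrank ℤ_[p] K) := by
  classical
  set f : A →+ A := (p ^ v) • AddMonoidHom.id A with hf
  have hfa : ∀ y, f y = p ^ v • y := fun y => rfl
  have h1 : Nat.card {y : A // p ^ v • y = 0} = Nat.card f.ker := by
    refine Nat.card_congr (Equiv.subtypeEquivRight fun y => ?_)
    rw [AddMonoidHom.mem_ker, hfa]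
  rw [h1, mze2_card_ker_eq_card_quot]
  -- the composite `K → A → A / p^v A` kills `p^v K`
  set q : K →+ A ⧸ f.range := (QuotientAddGroup.mk' f.range).comp s with hq
  have hpow : ∀ (n : ℕ) (w : K), s ((p : ℤ_[p]) ^ n • w) = p ^ n • s w := by
    intro n
    induction n with
    | zero => intro w; rw [pow_zero, pow_zero, one_smul, one_smul]
    | succ n ih =>
      intro w
      rw [pow_succ, mul_smul, ih, pow_succ, mul_smul]
      congr 1
      have := hsmul w
      rwa [pow_one] at this
  have hkill : ∀ w : K, q ((p : ℤ_[p]) ^ v • w) = 0 := by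
    intro w
    show QuotientAddGroup.mk' f.range (s ((p : ℤ_[p]) ^ v • w)) = 0
    rw [hpow, QuotientAddGroup.mk'_apply, QuotientAddGroup.eq_zero_iff]
    exact ⟨s w, hfa _⟩
  obtain ⟨_, hle⟩ := mze2_card_range_le v q hkill
  have hqs : Function.Surjective q :=
    (QuotientAddGroup.mk'_surjective f.range).comp hs
  have h2 : Nat.card q.range = Nat.card (A ⧸ f.range) := by
    have : q.range = ⊤ := AddMonoidHom.range_eq_top.mpr hqs
    rw [this]
    exact Nat.card_congr AddSubgroup.topEquiv.toEquiv
  rw [← h2]
  exact hle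

end Torsion

section QuasiInverse

variable {R : Type*} [CommRing R] [IsDomain R] {K : Type*} [AddCommGroup K] [Module R K]
  [Module.Free R K] [Module.Finite R K]

/-- **an injective endomorphism of a finite free module has a quasi-inverse** -/
theorem mze2_exists_quasi_inverse (f : Module.End R K) (hf : Function.Injective f) :
    ∃ (g : Module.End R K) (c : R), c ≠ 0 ∧ g * f = c • (1 : Module.End R K) := by
  classical
  by_cases hK : Subsingleton K
  · refine ⟨0, 1, one_ne_zero, ?_⟩
    ext x
    exact Subsingleton.elim _ _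
  rw [not_subsingleton_iff_nontrivial] at hK
  have hint : IsIntegral R f := Algebra.IsIntegral.isIntegral f
  set μ := minpoly R f with hμ
  -- `μ = X μ' + μ(0)`
  set μ' := μ.divX with hμ'
  have h1 : μ = Polynomial.X * μ' + Polynomial.C (μ.eval 0) := by
    have := Polynomial.divX_mul_X_add μ
    rw [Polynomial.coeff_zero_eq_eval_zero, mul_comm] at this
    exact this.symm
  have h2 : f * Polynomial.aeval f μ' + (μ.eval 0) • (1 : Module.End R K) = 0 := by
    have h3 := minpoly.aeval R f
    rw [← hμ, h1, map_add, map_mul, Polynomial.aeval_X, Polynomial.aeval_C,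
      Algebra.algebraMap_eq_smul_one] at h3
    exact h3
  have hcomm : f * Polynomial.aeval f μ' = Polynomial.aeval f μ' * f :=
    (Polynomial.aeval_X f (R := R) ▸ (Polynomial.commute_X μ').map (Polynomial.aeval f)).eq
  refine ⟨-(Polynomial.aeval f μ'), μ.eval 0, ?_, ?_⟩
  · -- `μ(0) ≠ 0`, otherwise `μ'` would be a monic annihilator of smaller degree
    intro h0
    rw [h0, zero_smul, add_zero] at h2
    have h4 : Polynomial.aeval f μ' = 0 := by
      ext x
      have := LinearMap.congr_fun h2 x
      rw [Module.End.mul_apply, LinearMap.zero_apply] at this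
      exact hf (this.trans (map_zero f).symm)
    have hmonic : μ.Monic := minpoly.monic hint
    have hμ0 : μ = Polynomial.X * μ' := by
      rw [h1, h0, map_zero, add_zero]
    have hμ'monic : μ'.Monic := by
      rw [hμ0] at hmonic
      exact (Polynomial.Monic.of_mul_monic_left Polynomial.monic_X hmonic)
    have hdeg : μ.natDegree = μ'.natDegree + 1 := by
      rw [hμ0, Polynomial.natDegree_X_mul hμ'monic.ne_zero]
    have hmin := minpoly.min R f hμ'monic h4
    rw [← hμ] at hmin
    have hmin' := Polynomial.natDegree_le_natDegree hmin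
    omega
  · rw [neg_mul, ← hcomm, neg_eq_iff_eq_neg, ← add_eq_zero_iff_eq_neg]
    exact h2

end QuasiInverse

end Fermat.Agent.Mazur
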