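/-
MAZUR (Track M), package (E2) (helper1), part 7: **the abstract (E2) theorem, `α`-part**
(`import Mathlib` + the abstract cores only).

`T` a free `ℤ_p`-module of finite rank with an action `gal` of a group `G`, Kummer maps
`κ k : T →+ J` (kernel `p^k T`, range `Mk k`), a character `ε : G →* ℤ_pˣ` with
(★) `tr (gal g) = ε(g) tr (gal g⁻¹)`, a "reduction map" `ρ : J →+ B` and an element `i₀ ∈ G` with
`ρ (i₀ y) = ρ y`, acting on `Mk k ∩ ker ρ` through `ε(i₀) ≠ 1`.  Then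
`# Mk k ≤ [Mk k : Mk k ∩ ker ρ]^2 * C` with `C` independent of `k`.
-/
import Mathlib
import Fermat.Agent.Lib.Mazur.E2.Spectral
import Fermat.Agent.Lib.Mazur.E2.Core
import Fermat.Agent.Lib.Mazur.E2.Count
import Fermat.Agent.Lib.Mazur.E2.Krull

set_option autoImplicit false
set_option linter.style.haveILetI false
set_option linter.unusedSectionVars false

namespace Fermat.Agent.Mazur

variable {p : ℕ} [hp : Fact p.Prime] {T : Type*} [AddCommGroup T] [Module ℤ_[p] T]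
  [Module.Free ℤ_[p] T] [Module.Finite ℤ_[p] T]
  {J : Type*} [AddCommGroup J] {B : Type*} [AddCommGroup B] {G : Type*} [Group G]
  [DistribMulAction G J]

/-- a nonzero `p`-adic integer is a power of `p` up to a unit -/
theorem mze2_exists_mul_eq_pow (c : ℤ_[p]) (hc : c ≠ 0) :
    ∃ (a : ℕ) (w : ℤ_[p]), w * c = (p : ℤ_[p]) ^ a := by
  refine ⟨c.valuation, ((PadicInt.unitCoeff hc)⁻¹ : ℤ_[p]ˣ), ?_⟩
  have h := PadicInt.unitCoeff_spec hc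
  calc (((PadicInt.unitCoeff hc)⁻¹ : ℤ_[p]ˣ) : ℤ_[p]) * c
      = (((PadicInt.unitCoeff hc)⁻¹ : ℤ_[p]ˣ) : ℤ_[p])
          * ((PadicInt.unitCoeff hc : ℤ_[p]) * (p : ℤ_[p]) ^ c.valuation) := by rw [← h]
    _ = (p : ℤ_[p]) ^ c.valuation := by rw [← mul_assoc, Units.inv_mul, one_mul]

/-- the hypotheses of the abstract (E2) theorem -/
structure Mze2Hyp (κ : ℕ → T →+ J) (Mk : ℕ → AddSubgroup J) (gal : G →* Module.End ℤ_[p] T)
    (ε : G →* ℤ_[p]ˣ) (ρ : J →+ B) (i₀ : G) : Prop where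
  range : ∀ (k : ℕ) (y : J), y ∈ Mk k ↔ ∃ x : T, κ k x = y
  ker : ∀ (k : ℕ) (x : T), κ k x = 0 ↔ ∃ w : T, x = (p : ℤ_[p]) ^ k • w
  smul : ∀ (k : ℕ) (a : ℤ_[p]) (x : T), κ k (a • x) = PadicInt.appr a k • κ k x
  equiv : ∀ (k : ℕ) (σ : G) (x : T), κ k (gal σ x) = σ • κ k x
  star : ∀ g : G, LinearMap.trace ℤ_[p] T (gal g)
    = ((ε g : ℤ_[p]ˣ) : ℤ_[p]) * LinearMap.trace ℤ_[p] T (gal g⁻¹)
  rho_i : ∀ y : J, ρ (i₀ • y) = ρ y
  cyc : ∀ (k : ℕ) (y : J), y ∈ Mk k → ρ y = 0 →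
    i₀ • y = PadicInt.appr ((ε i₀ : ℤ_[p]ˣ) : ℤ_[p]) k • y
  lam_ne : ((ε i₀ : ℤ_[p]ˣ) : ℤ_[p]) - 1 ≠ 0

namespace Mze2Hyp

variable {κ : ℕ → T →+ J} {Mk : ℕ → AddSubgroup J} {gal : G →* Module.End ℤ_[p] T}
  {ε : G →* ℤ_[p]ˣ} {ρ : J →+ B} {i₀ : G} (H : Mze2Hyp κ Mk gal ε ρ i₀)

include H

theorem sep (x : T) (h : ∀ k, κ k x = 0) : x = 0 :=
  mze2_eq_zero_of_forall_dvd (p := p) x fun k => (H.ker k x).mp (h k)

theorem mem (k : ℕ) (x : T) : κ k x ∈ Mk k := (H.range k _).mpr ⟨x, rfl⟩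

theorem natCast_smul (k : ℕ) (n : ℕ) (x : T) : κ k ((n : ℤ_[p]) • x) = n • κ k x := by
  rw [Nat.cast_smul_eq_nsmul, map_nsmul]

theorem pow_smul (k : ℕ) (n : ℕ) (x : T) : κ k ((p : ℤ_[p]) ^ n • x) = p ^ n • κ k x := by
  rw [← Nat.cast_pow, H.natCast_smul]

theorem tors (k : ℕ) {y : J} (hy : y ∈ Mk k) : p ^ k • y = 0 := by
  obtain ⟨x, rfl⟩ := (H.range k y).mp hy
  rw [← H.pow_smul]
  exact (H.ker k _).mpr ⟨x, rfl⟩

/-- `(I - lam)(I - 1) = 0` -/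
theorem eigen_sub (x : T) :
    gal i₀ (gal i₀ x - x) = ((ε i₀ : ℤ_[p]ˣ) : ℤ_[p]) • (gal i₀ x - x) := by
  rw [← sub_eq_zero]
  apply H.sep
  intro k
  have h1 : ρ (κ k (gal i₀ x - x)) = 0 := by
    rw [map_sub, H.equiv, map_sub, H.rho_i, sub_self]
  rw [map_sub, H.equiv, H.smul, H.cyc k _ (H.mem k _) h1, sub_self]

theorem quad (x : T) : gal i₀ (gal i₀ x) - (1 + ((ε i₀ : ℤ_[p]ˣ) : ℤ_[p])) • gal i₀ x
    + ((ε i₀ : ℤ_[p]ˣ) : ℤ_[p]) • x = 0 := by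
  have h := H.eigen_sub x
  rw [map_sub, smul_sub, sub_eq_iff_eq_add] at h
  rw [h, add_smul, one_smul]
  abel

/-- `lam • I⁻¹ = (1 + lam) - I` -/
theorem inv_eq : ((ε i₀ : ℤ_[p]ˣ) : ℤ_[p]) • gal i₀⁻¹
    = (1 + ((ε i₀ : ℤ_[p]ˣ) : ℤ_[p])) • (1 : Module.End ℤ_[p] T) - gal i₀ := by
  set lam := ((ε i₀ : ℤ_[p]ˣ) : ℤ_[p]) with hlam
  have hop : gal i₀ * gal i₀ - (1 + lam) • gal i₀ + lam • (1 : Module.End ℤ_[p] T) = 0 :=
    LinearMap.ext H.quad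
  have hII' : gal i₀ * gal i₀⁻¹ = 1 := by rw [← map_mul, mul_inv_cancel, map_one]
  have h1 := congrArg (fun X => X * gal i₀⁻¹) hop
  simp only [add_mul, sub_mul, mul_assoc, hII', mul_one, zero_mul, smul_mul_assoc, one_mul] at h1
  rw [← sub_eq_zero, ← h1]
  abel

/-- the `α`-core: the two eigenspaces of `I = gal i₀` have half the rank -/
theorem rank : 2 * Module.finrank ℤ_[p] (mze2K (gal i₀) ((ε i₀ : ℤ_[p]ˣ) : ℤ_[p]))
      = Module.finrank ℤ_[p] T ∧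
    2 * Module.finrank ℤ_[p] (mze2K (gal i₀) (1 : ℤ_[p])) = Module.finrank ℤ_[p] T := by
  set lam := ((ε i₀ : ℤ_[p]ˣ) : ℤ_[p]) with hlam
  refine mze2_alpha_core (gal i₀) lam H.quad H.lam_ne ?_
  have hop : gal i₀ * gal i₀ - (1 + lam) • gal i₀ + lam • (1 : Module.End ℤ_[p] T) = 0 :=
    LinearMap.ext H.quad
  have hII' : gal i₀ * gal i₀⁻¹ = 1 := by rw [← map_mul, mul_inv_cancel, map_one]
  have h1 := congrArg (fun X => X * gal i₀⁻¹) hop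
  simp only [add_mul, sub_mul, mul_assoc, hII', mul_one, zero_mul, smul_mul_assoc, one_mul] at h1
  have h2 := congrArg (LinearMap.trace ℤ_[p] T) h1
  rw [map_add, map_sub, map_smul, map_smul, map_zero, LinearMap.trace_one, smul_eq_mul,
    smul_eq_mul] at h2
  have h3 := H.star i₀
  rw [← hlam] at h3
  linear_combination h2 + h3

/-- the description of `Kλ` through the reduction map -/
theorem memK_iff (x : T) : x ∈ mze2K (gal i₀) ((ε i₀ : ℤ_[p]ˣ) : ℤ_[p]) ↔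
    ∀ k, ρ (κ k ((((ε i₀ : ℤ_[p]ˣ) : ℤ_[p]) - 1) • x)) = 0 := by
  set lam := ((ε i₀ : ℤ_[p]ˣ) : ℤ_[p]) with hlam
  rw [mem_mze2K]
  constructor
  · intro hx k
    rw [sub_smul, one_smul, ← hx, map_sub, H.equiv, map_sub, H.rho_i, sub_self]
  · intro h
    have h1 : gal i₀ ((lam - 1) • x) = lam • ((lam - 1) • x) := by
      rw [← sub_eq_zero]
      apply H.sep
      intro k
      rw [map_sub, H.equiv, H.smul k lam, H.cyc k _ (H.mem k _) (h k), sub_self]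
    rw [map_smul, smul_comm lam, ← sub_eq_zero, ← smul_sub, smul_eq_zero] at h1
    rcases h1 with h1 | h1
    · exact absurd h1 H.lam_ne
    · exact sub_eq_zero.mp h1

/-- `Kλ ∩ p^k T = p^k Kλ` -/
theorem kerK (k : ℕ) {x : T} (hx : x ∈ mze2K (gal i₀) ((ε i₀ : ℤ_[p]ˣ) : ℤ_[p]))
    (h : κ k x = 0) :
    ∃ w ∈ mze2K (gal i₀) ((ε i₀ : ℤ_[p]ˣ) : ℤ_[p]), x = (p : ℤ_[p]) ^ k • w := by
  obtain ⟨w, rfl⟩ := (H.ker k x).mp h
  refine ⟨w, ?_, rfl⟩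
  rw [mem_mze2K] at hx ⊢
  rw [map_smul, smul_comm, ← sub_eq_zero, ← smul_sub, smul_eq_zero] at hx
  rcases hx with hx | hx
  · exact absurd hx (pow_ne_zero _ (by exact_mod_cast hp.out.ne_zero))
  · exact sub_eq_zero.mp hx

theorem Mk_eq_range (k : ℕ) : Mk k = (κ k).range := by
  ext y
  rw [H.range k y, AddMonoidHom.mem_range]

theorem card_M (k : ℕ) : Nat.card ↥(Mk k) = p ^ (k * Module.finrank ℤ_[p] T) := by
  rw [H.Mk_eq_range k]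
  exact mze2_card_range_eq k (κ k) (H.ker k)

theorem finite_M (k : ℕ) : Finite ↥(Mk k) := by
  apply Nat.finite_of_card_ne_zero
  rw [H.card_M k]
  exact pow_ne_zero _ hp.out.ne_zero

/-- the image of `Kλ` -/
noncomputable def RK (_H : Mze2Hyp κ Mk gal ε ρ i₀) (k : ℕ) : AddSubgroup J :=
  ((κ k).comp (mze2K (gal i₀) ((ε i₀ : ℤ_[p]ˣ) : ℤ_[p])).subtype.toAddMonoidHom).range

theorem mem_RK (k : ℕ) (y : J) : y ∈ H.RK k ↔
    ∃ x ∈ mze2K (gal i₀) ((ε i₀ : ℤ_[p]ˣ) : ℤ_[p]), κ k x = y := by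
  unfold RK
  rw [AddMonoidHom.mem_range]
  constructor
  · rintro ⟨x, hx⟩
    exact ⟨x.1, x.2, hx⟩
  · rintro ⟨x, hx, hy⟩
    exact ⟨⟨x, hx⟩, hy⟩

theorem card_RK (k : ℕ) : Nat.card ↥(H.RK k)
    = p ^ (k * Module.finrank ℤ_[p] (mze2K (gal i₀) ((ε i₀ : ℤ_[p]ˣ) : ℤ_[p]))) := by
  unfold RK
  refine mze2_card_range_eq k _ (fun x => ?_)
  constructor
  · intro h
    obtain ⟨w, hw, hxw⟩ := H.kerK k x.2 h
    exact ⟨⟨w, hw⟩, Subtype.ext hxw⟩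
  · rintro ⟨w, rfl⟩
    exact (H.ker k _).mpr ⟨w.1, rfl⟩

/-- the torsion of `Mk k` is uniformly bounded -/
theorem card_torsion_le (k v : ℕ) :
    Nat.card {y : ↥(Mk k) // p ^ v • y = 0} ≤ p ^ (v * Module.finrank ℤ_[p] T) := by
  haveI := H.finite_M k
  let s : T →+ ↥(Mk k) := (κ k).codRestrict (Mk k) (H.mem k)
  refine mze2_card_torsion_le s ?_ ?_ v
  · rintro ⟨y, hy⟩
    obtain ⟨x, rfl⟩ := (H.range k y).mp hy
    exact ⟨x, rfl⟩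
  · intro w
    apply Subtype.ext
    show κ k ((p : ℤ_[p]) ^ 1 • w) = ((p • s w : ↥(Mk k)) : J)
    rw [H.pow_smul, pow_one]
    rfl

/-- the connected part -/
def M0 (_H : Mze2Hyp κ Mk gal ε ρ i₀) (k : ℕ) : AddSubgroup J := Mk k ⊓ ρ.ker

theorem mem_M0 (k : ℕ) (y : J) : y ∈ H.M0 k ↔ y ∈ Mk k ∧ ρ y = 0 := by
  unfold M0
  rw [AddSubgroup.mem_inf, AddMonoidHom.mem_ker]

/-- an element of `M0 k` killed by `i₀ - 1` is killed by `p^v` -/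
theorem tors_of_fixed {v : ℕ} {w₀ : ℤ_[p]}
    (hw₀ : w₀ * (((ε i₀ : ℤ_[p]ˣ) : ℤ_[p]) - 1) = (p : ℤ_[p]) ^ v) (k : ℕ) {y : J}
    (hy : y ∈ H.M0 k) (hfix : i₀ • y - y = 0) : p ^ v • y = 0 := by
  obtain ⟨hyM, hyρ⟩ := (H.mem_M0 k y).mp hy
  obtain ⟨x, rfl⟩ := (H.range k y).mp hyM
  rw [H.cyc k _ hyM hyρ, ← H.smul, ← map_sub] at hfix
  obtain ⟨w, hw⟩ := (H.ker k _).mp hfix
  rw [← H.pow_smul]
  refine (H.ker k _).mpr ⟨w₀ • w, ?_⟩
  rw [← hw₀, mul_smul, sub_smul, one_smul, hw, smul_comm]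

/-- `i₀ - 1` maps `M0 k` into the image of `Kλ` -/
theorem sub_mem_RK (k : ℕ) {y : J} (hy : y ∈ Mk k) : i₀ • y - y ∈ H.RK k := by
  obtain ⟨x, rfl⟩ := (H.range k y).mp hy
  rw [H.mem_RK]
  refine ⟨gal i₀ x - x, mze2_sub_one_mem (gal i₀) _ H.quad x, ?_⟩
  rw [map_sub, H.equiv]

end Mze2Hyp

/-- a counting lemma: `#A ≤ #S * #ker f` for `f : A → S` -/
theorem mze2_card_le_mul {A B' : Type*} [AddCommGroup A] [AddCommGroup B'] [Finite A]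
    (f : A →+ B') (S : AddSubgroup B') [Finite S] (hS : ∀ a, f a ∈ S) :
    Nat.card A ≤ Nat.card S * Nat.card f.ker := by
  have h1 : Nat.card A = Nat.card f.ker * Nat.card f.range := by
    rw [← Nat.card_congr (QuotientAddGroup.quotientKerEquivRange f).toEquiv, mul_comm]
    exact AddSubgroup.card_eq_card_quotient_mul_card_addSubgroup f.ker
  have h2 : f.range ≤ S := by
    rintro _ ⟨a, rfl⟩
    exact hS a
  rw [h1, mul_comm]
  exact Nat.mul_le_mul_right _ (AddSubgroup.card_le_of_le h2)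

namespace Mze2Hyp

variable {κ : ℕ → T →+ J} {Mk : ℕ → AddSubgroup J} {gal : G →* Module.End ℤ_[p] T}
  {ε : G →* ℤ_[p]ˣ} {ρ : J →+ B} {i₀ : G} (H : Mze2Hyp κ Mk gal ε ρ i₀)

include H

theorem card_M0_le {v : ℕ} {w₀ : ℤ_[p]}
    (hw₀ : w₀ * (((ε i₀ : ℤ_[p]ˣ) : ℤ_[p]) - 1) = (p : ℤ_[p]) ^ v) (k : ℕ) :
    Nat.card ↥(H.M0 k)
      ≤ p ^ (k * Module.finrank ℤ_[p] (mze2K (gal i₀) ((ε i₀ : ℤ_[p]ˣ) : ℤ_[p])))
        * p ^ (v * Module.finrank ℤ_[p] T) := by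
  classical
  haveI := H.finite_M k
  have hle : H.M0 k ≤ Mk k := inf_le_left
  haveI : Finite ↥(H.M0 k) := Finite.of_injective (AddSubgroup.inclusion hle)
    (AddSubgroup.inclusion_injective hle)
  haveI : Finite ↥(H.RK k) := by
    apply Nat.finite_of_card_ne_zero
    rw [H.card_RK k]
    exact pow_ne_zero _ hp.out.ne_zero
  set θ : ↥(H.M0 k) →+ J :=
    (DistribSMul.toAddMonoidHom J i₀ - AddMonoidHom.id J).comp (H.M0 k).subtype with hθ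
  have hθa : ∀ a : ↥(H.M0 k), θ a = i₀ • (a : J) - (a : J) := fun a => rfl
  have h1 := mze2_card_le_mul θ (H.RK k) (fun a => by
    rw [hθa]
    exact H.sub_mem_RK k (hle a.2))
  have h2 : Nat.card θ.ker ≤ Nat.card {y : ↥(Mk k) // p ^ v • y = 0} := by
    refine Nat.card_le_card_of_injective
      (fun a => ⟨⟨(a.1 : J), hle a.1.2⟩, ?_⟩) ?_
    · apply Subtype.ext
      have := H.tors_of_fixed hw₀ k a.1.2 (by rw [← hθa]; exact a.2)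
      simpa using this
    · intro a b hab
      have : ((a : ↥(H.M0 k)) : J) = ((b : ↥(H.M0 k)) : J) := by
        have := congrArg (fun z : {y : ↥(Mk k) // p ^ v • y = 0} => ((z : ↥(Mk k)) : J)) hab
        exact this
      exact Subtype.ext (Subtype.ext this)
  calc Nat.card ↥(H.M0 k) ≤ Nat.card ↥(H.RK k) * Nat.card θ.ker := h1
    _ ≤ Nat.card ↥(H.RK k) * Nat.card {y : ↥(Mk k) // p ^ v • y = 0} :=
        Nat.mul_le_mul_left _ h2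
    _ ≤ _ := by
        rw [H.card_RK k]
        exact Nat.mul_le_mul_left _ (H.card_torsion_le k v)

/-- **the abstract (N-α)** -/
theorem alpha : ∃ C : ℕ, ∀ k : ℕ,
    Nat.card ↥(Mk k) ≤ ((Mk k ⊓ ρ.ker).addSubgroupOf (Mk k)).index ^ 2 * C := by
  obtain ⟨v, w₀, hw₀⟩ := mze2_exists_mul_eq_pow _ H.lam_ne
  set r := Module.finrank ℤ_[p] T with hr
  set rl := Module.finrank ℤ_[p] (mze2K (gal i₀) ((ε i₀ : ℤ_[p]ˣ) : ℤ_[p])) with hrl
  have hrank : 2 * rl = r := H.rank.1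
  refine ⟨p ^ (2 * (v * r)), fun k => ?_⟩
  have hle : Mk k ⊓ ρ.ker ≤ Mk k := inf_le_left
  set idx := ((Mk k ⊓ ρ.ker).addSubgroupOf (Mk k)).index with hidx
  have hm : Nat.card ↥(Mk k) = p ^ (k * r) := H.card_M k
  have hm0 : Nat.card ↥(Mk k ⊓ ρ.ker) ≤ p ^ (k * rl) * p ^ (v * r) := H.card_M0_le hw₀ k
  have hmul : Nat.card ↥((Mk k ⊓ ρ.ker).addSubgroupOf (Mk k)) * idx = Nat.card ↥(Mk k) :=
    AddSubgroup.card_mul_index _
  have hcong : Nat.card ↥((Mk k ⊓ ρ.ker).addSubgroupOf (Mk k)) = Nat.card ↥(Mk k ⊓ ρ.ker) :=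
    Nat.card_congr (AddSubgroup.addSubgroupOfEquivOfLe hle).toEquiv
  rw [hcong] at hmul
  set m0 := Nat.card ↥(Mk k ⊓ ρ.ker) with hm0def
  have hpos : 0 < Nat.card ↥(Mk k) := by rw [hm]; exact pow_pos hp.out.pos _
  apply Nat.le_of_mul_le_mul_left _ hpos
  calc Nat.card ↥(Mk k) * Nat.card ↥(Mk k) = (m0 * idx) * (m0 * idx) := by rw [hmul]
    _ = m0 ^ 2 * idx ^ 2 := by ring
    _ ≤ (p ^ (k * rl) * p ^ (v * r)) ^ 2 * idx ^ 2 :=
        Nat.mul_le_mul_right _ (Nat.pow_le_pow_left hm0 2)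
    _ = p ^ (k * (2 * rl)) * (idx ^ 2 * p ^ (2 * (v * r))) := by
        rw [mul_pow, ← pow_mul, ← pow_mul]
        ring_nf
    _ = Nat.card ↥(Mk k) * (idx ^ 2 * p ^ (2 * (v * r))) := by rw [hrank, hm]

end Mze2Hyp

end Fermat.Agent.Mazur
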