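/-
MAZUR (Track M), package (E2) (helper1), part 8: **the abstract (E2) theorem, `w`-part**.

In the situation of `Mze2Hyp`, let moreover `φ ∈ G` act on the reductions through an injective
additive map `Φ` (`ρ (φ y) = Φ (ρ y)`) whose fixed points are killed by `n₀ ≠ 0`.  Then the number of
`y ∈ Mk k ∩ ker ρ` with `φ y = ε(φ) y` is bounded independently of `k`.
-/
import Mathlib
import Fermat.Agent.Lib.Mazur.E2.Abstract

set_option autoImplicit false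
set_option linter.style.haveILetI false
set_option linter.unusedSectionVars false

namespace Fermat.Agent.Mazur

variable {p : ℕ} [hp : Fact p.Prime] {T : Type*} [AddCommGroup T] [Module ℤ_[p] T]
  [Module.Free ℤ_[p] T] [Module.Finite ℤ_[p] T]
  {J : Type*} [AddCommGroup J] {B : Type*} [AddCommGroup B] {G : Type*} [Group G]
  [DistribMulAction G J]

namespace Mze2Hyp

variable {κ : ℕ → T →+ J} {Mk : ℕ → AddSubgroup J} {gal : G →* Module.End ℤ_[p] T}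
  {ε : G →* ℤ_[p]ˣ} {ρ : J →+ B} {i₀ : G} (H : Mze2Hyp κ Mk gal ε ρ i₀)
  (φ : G) (Φ : B →+ B) (hΦ : Function.Injective Φ) (hρφ : ∀ y : J, ρ (φ • y) = Φ (ρ y))

include H hρφ in
/-- `φ` preserves `Kλ` -/
theorem phi_memK {x : T} (hx : x ∈ mze2K (gal i₀) ((ε i₀ : ℤ_[p]ˣ) : ℤ_[p])) :
    gal φ x ∈ mze2K (gal i₀) ((ε i₀ : ℤ_[p]ˣ) : ℤ_[p]) := by
  rw [H.memK_iff] at hx ⊢
  intro k
  rw [← map_smul, H.equiv, hρφ, hx k, map_zero]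

include H hρφ hΦ in
/-- `φ⁻¹` preserves `Kλ` -/
theorem phi_inv_memK {x : T} (hx : x ∈ mze2K (gal i₀) ((ε i₀ : ℤ_[p]ˣ) : ℤ_[p])) :
    gal φ⁻¹ x ∈ mze2K (gal i₀) ((ε i₀ : ℤ_[p]ˣ) : ℤ_[p]) := by
  rw [H.memK_iff] at hx ⊢
  intro k
  apply hΦ
  have e : φ • κ k ((((ε i₀ : ℤ_[p]ˣ) : ℤ_[p]) - 1) • gal φ⁻¹ x)
      = κ k ((((ε i₀ : ℤ_[p]ˣ) : ℤ_[p]) - 1) • x) := by
    rw [← H.equiv, map_smul, ← Module.End.mul_apply, ← MonoidHom.map_mul, mul_inv_cancel,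
      MonoidHom.map_one, Module.End.one_apply]
  rw [map_zero, ← hρφ, e, hx k]

include H hρφ in
/-- `φ - 1` is injective modulo `Kλ` -/
theorem phi_inj (n₀ : ℕ) (hn₀ : n₀ ≠ 0) (hfix : ∀ b : B, Φ b = b → n₀ • b = 0) (x : T)
    (hx : gal φ x - x ∈ mze2K (gal i₀) ((ε i₀ : ℤ_[p]ˣ) : ℤ_[p])) :
    x ∈ mze2K (gal i₀) ((ε i₀ : ℤ_[p]ˣ) : ℤ_[p]) := by
  set lam := ((ε i₀ : ℤ_[p]ˣ) : ℤ_[p]) with hlam
  have h1 : (n₀ : ℤ_[p]) • x ∈ mze2K (gal i₀) lam := by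
    rw [H.memK_iff]
    intro k
    rw [smul_comm, H.natCast_smul, map_nsmul]
    apply hfix
    have h2 := (H.memK_iff _).mp hx k
    rw [smul_sub, ← map_smul, map_sub, H.equiv, map_sub, hρφ, sub_eq_zero] at h2
    exact h2
  rw [mem_mze2K] at h1 ⊢
  rw [map_smul, smul_comm, ← sub_eq_zero, ← smul_sub, smul_eq_zero] at h1
  rcases h1 with h1 | h1
  · exact absurd h1 (by exact_mod_cast hn₀)
  · exact sub_eq_zero.mp h1

include H in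
/-- the trace identity for the `w`-core -/
theorem trace_w (n : ℕ) :
    LinearMap.trace ℤ_[p] T (gal φ ^ (n + 1) * (gal i₀ - 1))
      = ((ε φ : ℤ_[p]ˣ) : ℤ_[p]) ^ (n + 1) * LinearMap.trace ℤ_[p] T
        ((((ε i₀ : ℤ_[p]ˣ) : ℤ_[p]) • (1 : Module.End ℤ_[p] T) - gal i₀) * gal φ⁻¹ ^ (n + 1)) := by
  set lam := ((ε i₀ : ℤ_[p]ˣ) : ℤ_[p]) with hlam
  set m := n + 1 with hm
  have h1 := H.star (φ ^ m * i₀)
  have h2 := H.star (φ ^ m)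
  have e1 : gal (φ ^ m * i₀) = gal φ ^ m * gal i₀ := by
    rw [MonoidHom.map_mul, MonoidHom.map_pow]
  have e2 : gal (φ ^ m * i₀)⁻¹ = gal i₀⁻¹ * gal φ⁻¹ ^ m := by
    rw [mul_inv_rev, ← inv_pow, MonoidHom.map_mul, MonoidHom.map_pow]
  have e3 : ((ε (φ ^ m * i₀) : ℤ_[p]ˣ) : ℤ_[p]) = ((ε φ : ℤ_[p]ˣ) : ℤ_[p]) ^ m * lam := by
    rw [MonoidHom.map_mul, MonoidHom.map_pow, Units.val_mul, Units.val_pow_eq_pow_val]
  have e4 : gal (φ ^ m) = gal φ ^ m := MonoidHom.map_pow _ _ _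
  have e5 : gal (φ ^ m)⁻¹ = gal φ⁻¹ ^ m := by rw [← inv_pow, MonoidHom.map_pow]
  have e6 : ((ε (φ ^ m) : ℤ_[p]ˣ) : ℤ_[p]) = ((ε φ : ℤ_[p]ˣ) : ℤ_[p]) ^ m := by
    rw [MonoidHom.map_pow, Units.val_pow_eq_pow_val]
  rw [e1, e2, e3] at h1
  rw [e4, e5, e6] at h2
  have h3 : (lam • (1 : Module.End ℤ_[p] T) - gal i₀) * gal φ⁻¹ ^ m
      = lam • (gal i₀⁻¹ * gal φ⁻¹ ^ m) - gal φ⁻¹ ^ m := by
    rw [← smul_mul_assoc, H.inv_eq, sub_mul, sub_mul, smul_mul_assoc, smul_mul_assoc, one_mul,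
      add_smul, one_smul]
    abel
  rw [h3, mul_sub, mul_one, map_sub, map_sub, map_smul, h1, h2, smul_eq_mul]
  ring

include H hΦ hρφ in
/-- **the `w`-core**: `φ - ε(φ)` is injective on `Kλ` -/
theorem w_inj (n₀ : ℕ) (hn₀ : n₀ ≠ 0) (hfix : ∀ b : B, Φ b = b → n₀ • b = 0) (x : T)
    (hx : x ∈ mze2K (gal i₀) ((ε i₀ : ℤ_[p]ˣ) : ℤ_[p]))
    (hφx : gal φ x = ((ε φ : ℤ_[p]ˣ) : ℤ_[p]) • x) : x = 0 := by
  have hφφ' : gal φ * gal φ⁻¹ = 1 := by rw [← map_mul, mul_inv_cancel, map_one]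
  have hφ'φ : gal φ⁻¹ * gal φ = 1 := by rw [← map_mul, inv_mul_cancel, map_one]
  refine mze2_w_core (gal i₀) _ H.quad (gal φ) (gal φ⁻¹) hφφ' hφ'φ
    (fun x hx => H.phi_memK φ Φ hρφ hx) (fun x hx => H.phi_inv_memK φ Φ hΦ hρφ hx) H.lam_ne
    ((ε φ : ℤ_[p]ˣ) : ℤ_[p]) (Units.ne_zero _) ?_ (H.trace_w φ)
    (H.phi_inj φ Φ hρφ n₀ hn₀ hfix) x hx hφx
  have := H.rank
  omega

include H hΦ hρφ in
/-- **the abstract (N-w)** -/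
theorem w_bound (n₀ : ℕ) (hn₀ : n₀ ≠ 0) (hfix : ∀ b : B, Φ b = b → n₀ • b = 0) :
    ∃ a : ℕ, ∀ k : ℕ, ∀ y : J, y ∈ Mk k → ρ y = 0 →
      φ • y = PadicInt.appr ((ε φ : ℤ_[p]ˣ) : ℤ_[p]) k • y → p ^ a • y = 0 := by
  classical
  set lam := ((ε i₀ : ℤ_[p]ˣ) : ℤ_[p]) with hlam
  set eφ := ((ε φ : ℤ_[p]ˣ) : ℤ_[p]) with heφ
  set Kl := mze2K (gal i₀) lam with hKl
  have hφK : ∀ x ∈ Kl, gal φ x ∈ Kl := fun x hx => H.phi_memK φ Φ hρφ hx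
  -- the injective endomorphism `f = φ - ε(φ)` of `Kλ` and its quasi-inverse
  set f : Module.End ℤ_[p] ↥Kl := (gal φ).restrict hφK - eφ • (1 : Module.End ℤ_[p] ↥Kl) with hf
  have hfa : ∀ z : ↥Kl, ((f z : ↥Kl) : T) = gal φ (z : T) - eφ • (z : T) := fun z => rfl
  have hfinj : Function.Injective f := by
    rw [injective_iff_map_eq_zero]
    intro z hz
    have h1 : gal φ (z : T) = eφ • (z : T) := by
      have := congrArg Subtype.val hz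
      rw [hfa] at this
      exact sub_eq_zero.mp this
    exact Subtype.ext (H.w_inj φ Φ hΦ hρφ n₀ hn₀ hfix _ z.2 h1)
  obtain ⟨g, c, hc, hgf⟩ := mze2_exists_quasi_inverse f hfinj
  obtain ⟨a, w₁, hw₁⟩ := mze2_exists_mul_eq_pow c hc
  obtain ⟨v, w₀, hw₀⟩ := mze2_exists_mul_eq_pow _ H.lam_ne
  refine ⟨a + v, fun k y hyM hyρ hφy => ?_⟩
  obtain ⟨x, rfl⟩ := (H.range k y).mp hyM
  -- `x₁ = (I - 1) x ∈ Kλ` and `κ x₁ = κ (u x)`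
  set x₁ : ↥Kl := ⟨gal i₀ x - x, mze2_sub_one_mem (gal i₀) lam H.quad x⟩ with hx₁
  have hκx₁ : κ k (x₁ : T) = κ k ((lam - 1) • x) := by
    rw [hx₁]
    show κ k (gal i₀ x - x) = _
    rw [map_sub, H.equiv, H.cyc k _ hyM hyρ, ← H.smul, ← map_sub, sub_smul, one_smul]
  -- `κ (f x₁) = 0`
  have hκf : κ k ((f x₁ : ↥Kl) : T) = 0 := by
    rw [hfa, map_sub, H.equiv, H.smul, hκx₁, H.smul, smul_comm φ, hφy, smul_comm, sub_self]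
  obtain ⟨w, hw, hfw⟩ := H.kerK k (f x₁).2 hκf
  -- `c • x₁ ∈ p^k Kλ`
  have hcx₁ : c • (x₁ : T) = (p : ℤ_[p]) ^ k • ((g ⟨w, hw⟩ : ↥Kl) : T) := by
    have h1 : f x₁ = (p : ℤ_[p]) ^ k • (⟨w, hw⟩ : ↥Kl) := Subtype.ext hfw
    have h2 := congrArg (fun F : Module.End ℤ_[p] ↥Kl => ((F x₁ : ↥Kl) : T)) hgf
    simp only [Module.End.mul_apply, LinearMap.smul_apply, Module.End.one_apply] at h2
    rw [h1, map_smul] at h2
    exact h2.symm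
  have h3 : κ k ((c * (lam - 1)) • x) = 0 := by
    rw [mul_smul, H.smul, ← hκx₁, ← H.smul, hcx₁]
    exact (H.ker k _).mpr ⟨_, rfl⟩
  obtain ⟨w', hw'⟩ := (H.ker k _).mp h3
  rw [← H.pow_smul]
  refine (H.ker k _).mpr ⟨(w₁ * w₀) • w', ?_⟩
  have h4 : (p : ℤ_[p]) ^ (a + v) = (w₁ * w₀) * (c * (lam - 1)) := by
    rw [pow_add, ← hw₁, ← hw₀]
    ring
  rw [h4, mul_smul, hw', smul_comm]

include H hΦ hρφ in
/-- **the abstract (N-w), counting form** -/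
theorem w_card (n₀ : ℕ) (hn₀ : n₀ ≠ 0) (hfix : ∀ b : B, Φ b = b → n₀ • b = 0) :
    ∃ a : ℕ, ∀ k : ℕ, Nat.card {y : J // y ∈ Mk k ∧ ρ y = 0 ∧
      φ • y = PadicInt.appr ((ε φ : ℤ_[p]ˣ) : ℤ_[p]) k • y} ≤ p ^ a := by
  obtain ⟨a, ha⟩ := H.w_bound φ Φ hΦ hρφ n₀ hn₀ hfix
  refine ⟨a * Module.finrank ℤ_[p] T, fun k => ?_⟩
  haveI := H.finite_M k
  refine le_trans ?_ (H.card_torsion_le k a)
  refine Nat.card_le_card_of_injective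
    (fun y => ⟨⟨y.1, y.2.1⟩, Subtype.ext (by
      have := ha k y.1 y.2.1 y.2.2.1 y.2.2.2
      simpa using this)⟩) ?_
  intro y y' h
  have := congrArg (fun z : {y : ↥(Mk k) // p ^ a • y = 0} => ((z : ↥(Mk k)) : J)) h
  exact Subtype.ext this

end Mze2Hyp

end Fermat.Agent.Mazur
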