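/-
MAZUR (Track M), package (E2) (helper1), part 9: **counting equivariant characters**
(`import Mathlib` + `Count`).

* `mze2_card_addChar_le` : a finite abelian group has at most `#A` characters with values in a field
  (Dedekind);
* `mze2_card_equivariant_char_le` : the number of characters `ψ` of `A` with `ψ (f x) = τ (ψ x)`,
  where `τ` raises the values of the characters to the `m`-th power, is at most `# ker (f - m)`.
-/
import Mathlib
import Fermat.Agent.Lib.Mazur.E2.Count

set_option autoImplicit false
set_option linter.style.haveILetI false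
set_option linter.unusedSectionVars false

namespace Fermat.Agent.Mazur

/-- a finite abelian group has at most `#A` characters with values in a field -/
theorem mze2_card_addChar_le (A : Type*) [AddCommGroup A] [Finite A] (F : Type*) [Field F] :
    Nat.card (AddChar A F) ≤ Nat.card A := by
  classical
  haveI := Fintype.ofFinite A
  have hli : LinearIndependent F (fun f : Multiplicative A →* F => (f : Multiplicative A → F)) :=
    linearIndependent_monoidHom (Multiplicative A) F
  haveI : Finite (Multiplicative A →* F) := hli.finite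
  haveI := Fintype.ofFinite (Multiplicative A →* F)
  have h1 := hli.fintype_card_le_finrank
  rw [Module.finrank_fintype_fun_eq_card] at h1
  rw [Nat.card_congr (AddChar.toMonoidHomEquiv (A := A) (M := F)), Nat.card_eq_fintype_card,
    Nat.card_eq_fintype_card]
  exact h1.trans (le_of_eq (Fintype.card_congr Multiplicative.toAdd))

/-- **counting equivariant characters** -/
theorem mze2_card_equivariant_char_le {A : Type*} [AddCommGroup A] [Finite A] {F : Type*}
    [Field F] (f : A →+ A) (τ : F → F) (m : ℕ)
    (hτ : ∀ (ψ : AddChar A F) (x : A), τ (ψ x) = ψ x ^ m) :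
    Nat.card {ψ : AddChar A F // ∀ x, ψ (f x) = τ (ψ x)} ≤ Nat.card {x : A // f x = m • x} := by
  classical
  set g : A →+ A := f - m • AddMonoidHom.id A with hg
  have hga : ∀ x, g x = f x - m • x := fun x => rfl
  -- characters killing the range of `g`
  have hkill : ∀ ψ : {ψ : AddChar A F // ∀ x, ψ (f x) = τ (ψ x)}, ∀ y ∈ g.range,
      (AddChar.toAddMonoidHomEquiv (ψ : AddChar A F)) y = 0 := by
    rintro ⟨ψ, hψ⟩ _ ⟨x, rfl⟩
    show Additive.ofMul (ψ (g x)) = 0
    rw [hga, sub_eq_add_neg, AddChar.map_add_eq_mul, AddChar.map_neg_eq_inv, hψ x, hτ,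
      AddChar.map_nsmul_eq_pow, mul_inv_cancel₀ (pow_ne_zero _ (ψ.val_isUnit x).ne_zero)]
    rfl
  let L : {ψ : AddChar A F // ∀ x, ψ (f x) = τ (ψ x)} → AddChar (A ⧸ g.range) F := fun ψ =>
    AddChar.toAddMonoidHomEquiv.symm
      (QuotientAddGroup.lift g.range (AddChar.toAddMonoidHomEquiv (ψ : AddChar A F)) (hkill ψ))
  have hL : ∀ ψ x, L ψ (QuotientAddGroup.mk x) = (ψ : AddChar A F) x := fun ψ x => rfl
  have hLinj : Function.Injective L := by
    intro ψ ψ' h
    apply Subtype.ext
    ext x
    rw [← hL ψ x, ← hL ψ' x, h]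
  have h1 : Nat.card {ψ : AddChar A F // ∀ x, ψ (f x) = τ (ψ x)}
      ≤ Nat.card (AddChar (A ⧸ g.range) F) := by
    haveI := Fintype.ofFinite (A ⧸ g.range)
    have hli : LinearIndependent F
        (fun f : Multiplicative (A ⧸ g.range) →* F => (f : Multiplicative (A ⧸ g.range) → F)) :=
      linearIndependent_monoidHom (Multiplicative (A ⧸ g.range)) F
    haveI : Finite (Multiplicative (A ⧸ g.range) →* F) := hli.finite
    haveI : Finite (AddChar (A ⧸ g.range) F) :=
      Finite.of_equiv _ (AddChar.toMonoidHomEquiv (A := A ⧸ g.range) (M := F)).symm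
    exact Nat.card_le_card_of_injective L hLinj
  have h2 := mze2_card_addChar_le (A ⧸ g.range) F
  have h3 : Nat.card (A ⧸ g.range) = Nat.card g.ker := (mze2_card_ker_eq_card_quot g).symm
  have h4 : Nat.card g.ker = Nat.card {x : A // f x = m • x} := by
    refine Nat.card_congr (Equiv.subtypeEquivRight fun x => ?_)
    rw [AddMonoidHom.mem_ker, hga, sub_eq_zero]
  rw [← h4, ← h3]
  exact h1.trans h2

end Fermat.Agent.Mazur
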