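/-
MAZUR (Track M), package (E2) (helper1), part 12: **the inertia group at `p` acts on the `p`-power
roots of unity through all of `Gal(ℚ(ζ_{p^n})/ℚ)`** (all primes `p`, including `2`).

* `mze2_exists_inertia_agree` : for every `σ₀ ∈ G_ℚ` there is `σ` in the inertia group of a place
  over `p` with `σ ζ_{p^n} = σ₀ ζ_{p^n}`  (`ℤ[ζ_{p^n}]` is the ring of integers and has residue field
  `𝔽_p` at `1 - ζ`);
* `mze2_exists_inertia_eps_ne_one` : there is `i₀` in the inertia group with `ε(i₀) ≠ 1`.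
-/
import Mathlib
import Fermat.Agent.Lib.TW.Local.CycloRamified
import Fermat.Agent.Lib.Mazur.E2.Cyclo

set_option autoImplicit false
set_option linter.style.haveILetI false
set_option linter.unusedSectionVars false

namespace Fermat.Agent.Mazur

open Polynomial IsLocalRing
open Fermat.Agent.TW Fermat.Agent.CFT Fermat.Agent.CFT.Pinf Fermat.Agent.CFT.Bridge

local notation "Qb" => AlgebraicClosure ℚ
local notation "GQ" => (AlgebraicClosure ℚ ≃ₐ[ℚ] AlgebraicClosure ℚ)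

/-- `p`-power roots of unity are `≡ 1` modulo a place over `p` -/
theorem mze2_valuation_rootOfUnity_sub_one_lt {p : ℕ} (hp : p.Prime) (n : ℕ)
    (P : ValuationSubring Qb) (hP : P.LiesOverPrime p) {t : Qb} (ht : t ^ p ^ n = 1) :
    P.valuation (t - 1) < 1 := by
  have htP : t ∈ P := mem_valuationSubring_of_pow_eq_one P (pow_pos hp.pos n) ht
  have hp0 : (p : ResidueField P) = 0 := by
    have h1 : ((p : ℕ) : Qb) ∈ P.nonunits := hP
    have h2 : P.valuation ((p : ℕ) : Qb) < 1 := (P.mem_nonunits_iff).1 h1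
    have hpP : ((p : ℕ) : Qb) ∈ P := (P.valuation_le_one_iff _).1 h2.le
    have h3 : (⟨((p : ℕ) : Qb), hpP⟩ : P) ∈ maximalIdeal P := (P.valuation_lt_one_iff _).2 h2
    have h4 : residue P ⟨((p : ℕ) : Qb), hpP⟩ = 0 := (residue_eq_zero_iff _).2 h3
    have h5 : (⟨((p : ℕ) : Qb), hpP⟩ : P) = ((p : ℕ) : P) := Subtype.ext (by simp)
    rw [h5, map_natCast] at h4
    exact h4
  haveI : CharP (ResidueField P) p := (CharP.charP_iff_prime_eq_zero hp).2 hp0
  haveI : Fact p.Prime := ⟨hp⟩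
  have h6 : (residue P ⟨t, htP⟩ - 1) ^ p ^ n = 0 := by
    rw [sub_pow_char_pow, one_pow, ← map_pow]
    have : (⟨t, htP⟩ : P) ^ p ^ n = 1 := Subtype.ext (by simpa using ht)
    rw [this, map_one, sub_self]
  have h7 : residue P ⟨t, htP⟩ - 1 = 0 :=
    pow_eq_zero_iff (pow_ne_zero n hp.ne_zero) |>.1 h6
  have h8 : residue P (⟨t, htP⟩ - 1) = 0 := by rw [map_sub, map_one]; exact h7
  have h9 := (residue_eq_zero_iff _).1 h8
  exact (P.valuation_lt_one_iff _).1 h9

/-- **inertia at `p` surjects onto `Gal(ℚ(ζ_{p^n})/ℚ)`** -/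
theorem mze2_exists_inertia_agree (p : ℕ) [hp : Fact p.Prime] (n : ℕ)
    (P : ValuationSubring Qb) (hP : P.LiesOverPrime p) (σ0 : GQ) :
    ∃ σ ∈ P.inertiaSubgroupIn ℚ, σ (zetaQbar (p ^ n)) = σ0 (zetaQbar (p ^ n)) := by
  have hpos : 0 < p ^ n := pow_pos hp.out.pos n
  set ζ := zetaQbar (p ^ n) with hζdef
  have hζ : IsPrimitiveRoot ζ (p ^ n) := zetaQbar_spec (p ^ n)
  have hζp : ζ ^ p ^ n = 1 := hζ.pow_eq_one
  set F : IntermediateField ℚ Qb := IntermediateField.adjoin ℚ {ζ} with hF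
  have hFst : ∀ (σ : GQ) (x : Qb), x ∈ F → σ x ∈ F :=
    fun σ x hx => tw_adjoin_rootOfUnity_stable hpos hζp hζ σ x hx
  have hζF : ζ ∈ F := IntermediateField.mem_adjoin_simple_self ℚ ζ
  have h0 : ∀ y : Qb, y ∈ F → IsIntegral ℤ y → P.valuation (σ0 y - y) < 1 := by
    intro y hyF hyint
    have hcyc0 := hζ.intermediateField_adjoin_isCyclotomicExtension (K := ℚ)
    have hcyc : IsCyclotomicExtension {p ^ n} ℚ ↥F := by
      convert hcyc0 using 1
      · rfl
      · exact Subsingleton.elim _ _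
    set ζ' : ↥F := ⟨ζ, hζF⟩ with hζ'
    have hζ'prim : IsPrimitiveRoot ζ' (p ^ n) := by
      have : IsPrimitiveRoot (algebraMap ↥F Qb ζ') (p ^ n) := hζ
      exact this.of_map_of_injective (algebraMap ↥F Qb).injective
    have hic := IsCyclotomicExtension.Rat.isIntegralClosure_adjoin_singleton_of_prime_pow hζ'prim
    have hy' : IsIntegral ℤ (⟨y, hyF⟩ : ↥F) := by
      have : IsIntegral ℤ (algebraMap ↥F Qb ⟨y, hyF⟩) := hyint
      exact (isIntegral_algHom_iff (IsScalarTower.toAlgHom ℤ ↥F Qb)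
        (algebraMap ↥F Qb).injective).1 this
    obtain ⟨a, ha⟩ := (hic.isIntegral_iff).1 hy'
    have ha2 : (a : ↥F) ∈ Algebra.adjoin ℤ {ζ'} := a.2
    rw [Algebra.adjoin_singleton_eq_range_aeval] at ha2
    obtain ⟨f, hf⟩ := ha2
    have hyf : y = eval₂ (Int.castRingHom Qb) ζ f := by
      have h1 : (⟨y, hyF⟩ : ↥F) = aeval ζ' f := by rw [← ha]; exact hf.symm
      have h2 := congrArg (algebraMap ↥F Qb) h1
      rw [aeval_def, hom_eval₂] at h2
      have h3 : (algebraMap ↥F Qb).comp (algebraMap ℤ ↥F) = Int.castRingHom Qb :=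
        Subsingleton.elim _ _
      rw [h3] at h2
      exact h2
    have hσy : σ0 y = eval₂ (Int.castRingHom Qb) (σ0 ζ) f := by
      rw [hyf]
      have := hom_eval₂ f (Int.castRingHom Qb) (σ0 : Qb ≃ₐ[ℚ] Qb).toAlgHom.toRingHom ζ
      have h3 : ((σ0 : Qb ≃ₐ[ℚ] Qb).toAlgHom.toRingHom).comp (Int.castRingHom Qb) =
        Int.castRingHom Qb := Subsingleton.elim _ _
      rw [h3] at this
      exact this
    have hζP : ζ ∈ P := mem_valuationSubring_of_pow_eq_one P hpos hζp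
    have hσζp : (σ0 ζ) ^ p ^ n = 1 := by rw [← map_pow, hζp, map_one]
    have hσζP : σ0 ζ ∈ P := mem_valuationSubring_of_pow_eq_one P hpos hσζp
    obtain ⟨w, hw⟩ := sub_dvd_eval_sub (⟨σ0 ζ, hσζP⟩ : P) ⟨ζ, hζP⟩ (f.map (Int.castRingHom P))
    have hw' : σ0 y - y = (σ0 ζ - ζ) * (w : Qb) := by
      have h1 := congrArg (P.subtype) hw
      rw [map_sub, map_mul, map_sub, ← eval₂_eq_eval_map, ← eval₂_eq_eval_map, hom_eval₂,
        hom_eval₂] at h1
      have h3 : (P.subtype).comp (Int.castRingHom P) = Int.castRingHom Qb :=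
        Subsingleton.elim _ _
      rw [h3] at h1
      rw [hσy, hyf]
      exact h1
    rw [hw', map_mul]
    have h1 : P.valuation (σ0 ζ - ζ) < 1 := by
      have e : σ0 ζ - ζ = (σ0 ζ - 1) - (ζ - 1) := by ring
      rw [e]
      exact Valuation.map_sub_lt _ (mze2_valuation_rootOfUnity_sub_one_lt hp.out n P hP hσζp)
        (mze2_valuation_rootOfUnity_sub_one_lt hp.out n P hP hζp)
    have h2 : P.valuation (w : Qb) ≤ 1 := (P.valuation_le_one_iff _).2 w.2
    calc P.valuation (σ0 ζ - ζ) * P.valuation (w : Qb) ≤ P.valuation (σ0 ζ - ζ) * 1 :=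
          mul_le_mul_right h2 _
      _ = P.valuation (σ0 ζ - ζ) := mul_one _
      _ < 1 := h1
  obtain ⟨σ, hσ, hσF⟩ := exists_mem_inertiaSubgroupIn_eqOn F hFst hp.out hP σ0 h0
  exact ⟨σ, hσ, hσF ζ hζF⟩

/-- **there is an element of the inertia group at `p` on which the cyclotomic character is
nontrivial** -/
theorem mze2_exists_inertia_eps_ne_one (p : ℕ) [hp : Fact p.Prime]
    (P : ValuationSubring Qb) (hP : P.LiesOverPrime p) :
    ∃ σ ∈ P.inertiaSubgroupIn ℚ, ((mze2Eps p σ : ℤ_[p]ˣ) : ℤ_[p]) - 1 ≠ 0 := by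
  obtain ⟨σ, hσ, hσζ⟩ := mze2_exists_inertia_agree p 2 P hP complexConjugation
  refine ⟨σ, hσ, fun h => ?_⟩
  set ζ := zetaQbar (p ^ 2) with hζdef
  have hζ : IsPrimitiveRoot ζ (p ^ 2) := zetaQbar_spec (p ^ 2)
  have hpos : 0 < p ^ 2 := pow_pos hp.out.pos 2
  -- `σ ζ = ζ`
  have h1 : σ ζ = ζ ^ 1 :=
    (mze2Eps_iff p σ 2 1 hζ).mpr ⟨0, by rw [Nat.cast_one, h, mul_zero]⟩
  rw [pow_one, hσζ] at h1
  -- `c ζ = ζ⁻¹`
  have hζ0 : ζ ≠ 0 := hζ.ne_zero hpos.ne'
  have h2 : complexConjugation ζ = ζ⁻¹ := by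
    apply (complexEmbedding : Qb →+* ℂ).injective
    show complexEmbedding (complexConjugation ζ) = complexEmbedding ζ⁻¹
    rw [complexEmbedding_complexConjugation, map_inv₀]
    have hnorm : ‖complexEmbedding ζ‖ = 1 := by
      apply Complex.norm_eq_one_of_pow_eq_one (n := p ^ 2) _ hpos.ne'
      rw [← map_pow, hζ.pow_eq_one, map_one]
    exact (Complex.inv_eq_conj hnorm).symm
  rw [h2] at h1
  have h3 : ζ ^ 2 = 1 := by
    rw [sq]
    nth_rewrite 1 [← h1]
    exact inv_mul_cancel₀ hζ0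
  have h4 : p ^ 2 ∣ 2 := hζ.dvd_of_pow_eq_one 2 h3
  have h5 : p ^ 2 ≤ 2 := Nat.le_of_dvd (by norm_num) h4
  have h6 : 2 ≤ p := hp.out.two_le
  nlinarith

end Fermat.Agent.Mazur
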