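/-
MAZUR (Track M), package (E2) (helper1), part 10: **lifting a compatible family of idempotents to the
Tate module** (`import Mathlib` + `Krull`).

`K` a free `ℤ_p`-module of finite rank with Kummer maps `κ k : K →+ J` (kernel `p^k K`, values killed
by `p^k`); operators `Tj i` on `J` with lifts in a `ℤ_p`-subalgebra `𝒜 ≤ End K`.  Then every element
of the subring generated by the `Tj i` has a lift in `𝒜` (`mze2_lift_closure`), and a family
`e k` in that subring with `e (k+1) = e k` on `J[p^k]` and `e k` idempotent on `J[p^k]` lifts to an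
idempotent `ê ∈ 𝒜` with `κ k (ê x) = e k (κ k x)` (`mze2_exists_idem`).
-/
import Mathlib
import Fermat.Agent.Lib.Mazur.E2.Krull

set_option autoImplicit false
set_option linter.style.haveILetI false
set_option linter.unusedSectionVars false

namespace Fermat.Agent.Mazur

variable {p : ℕ} [hp : Fact p.Prime] {K : Type*} [AddCommGroup K] [Module ℤ_[p] K]
  [Module.Free ℤ_[p] K] [Module.Finite ℤ_[p] K] {J : Type*} [AddCommGroup J]
  (κ : ℕ → K →+ J)
  {ι : Type*} (Tj : ι → AddMonoid.End J) (𝒜 : Subalgebra ℤ_[p] (Module.End ℤ_[p] K))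

/-- every element of the subring generated by the `Tj i` has a lift in `𝒜` -/
theorem mze2_lift_closure
    (hlift : ∀ i, ∃ t ∈ 𝒜, ∀ (k : ℕ) (x : K), κ k (t x) = Tj i (κ k x))
    (f : AddMonoid.End J) (hf : f ∈ Subring.closure (Set.range Tj)) :
    ∃ F ∈ 𝒜, ∀ (k : ℕ) (x : K), κ k (F x) = f (κ k x) := by
  induction hf using Subring.closure_induction with
  | mem f hf =>
    obtain ⟨i, rfl⟩ := hf
    exact hlift i
  | zero => exact ⟨0, 𝒜.zero_mem, fun k x => by rw [LinearMap.zero_apply, map_zero]; rfl⟩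
  | one => exact ⟨1, 𝒜.one_mem, fun k x => rfl⟩
  | add f g _ _ hf hg =>
    obtain ⟨F, hF, hFκ⟩ := hf
    obtain ⟨G, hG, hGκ⟩ := hg
    refine ⟨F + G, 𝒜.add_mem hF hG, fun k x => ?_⟩
    rw [LinearMap.add_apply, map_add, hFκ, hGκ]
    rfl
  | neg f _ hf =>
    obtain ⟨F, hF, hFκ⟩ := hf
    refine ⟨-F, 𝒜.neg_mem hF, fun k x => ?_⟩
    rw [LinearMap.neg_apply, map_neg, hFκ]
    rfl
  | mul f g _ _ hf hg =>
    obtain ⟨F, hF, hFκ⟩ := hf
    obtain ⟨G, hG, hGκ⟩ := hg
    refine ⟨F * G, 𝒜.mul_mem hF hG, fun k x => ?_⟩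
    rw [Module.End.mul_apply, hFκ, hGκ]
    rfl

/-- **the limit idempotent** -/
theorem mze2_exists_idem
    (hker : ∀ (k : ℕ) (x : K), κ k x = 0 ↔ ∃ w : K, x = (p : ℤ_[p]) ^ k • w)
    (htors : ∀ (k : ℕ) (x : K), p ^ k • κ k x = 0)
    (hlift : ∀ i, ∃ t ∈ 𝒜, ∀ (k : ℕ) (x : K), κ k (t x) = Tj i (κ k x))
    (e : ℕ → AddMonoid.End J) (he : ∀ k, e k ∈ Subring.closure (Set.range Tj))
    (hsucc : ∀ (k : ℕ) (y : J), p ^ k • y = 0 → e (k + 1) y = e k y)
    (hidem : ∀ (k : ℕ) (y : J), p ^ k • y = 0 → e k (e k y) = e k y) :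
    ∃ ê ∈ 𝒜, ê * ê = ê ∧ ∀ (k : ℕ) (x : K), κ k (ê x) = e k (κ k x) := by
  classical
  choose E hE𝒜 hEκ using fun k => mze2_lift_closure κ Tj 𝒜 hlift (e k) (he k)
  -- the lifts form a Cauchy sequence
  have hcauchy : ∀ (k : ℕ) (v : K), ∃ w : K, E (k + 1) v - E k v = (p : ℤ_[p]) ^ k • w := by
    intro k v
    apply (hker k _).mp
    rw [map_sub, hEκ, hEκ, hsucc k _ (htors k v), sub_self]
  obtain ⟨ê, hê⟩ := mze2_exists_limit_end E hcauchy
  have hê𝒜 : ê ∈ 𝒜 := by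
    have : ê ∈ Subalgebra.toSubmodule 𝒜 := by
      apply mze2_mem_of_forall_approx (p := p)
      intro n
      obtain ⟨W, hW⟩ := hê n
      exact ⟨E n, hE𝒜 n, W, hW⟩
    exact this
  have hêκ : ∀ (k : ℕ) (x : K), κ k (ê x) = e k (κ k x) := by
    intro k x
    obtain ⟨W, hW⟩ := hê k
    have h1 : ê x = E k x + (p : ℤ_[p]) ^ k • W x := by
      have := congrArg (fun F : Module.End ℤ_[p] K => F x) hW
      simp only [LinearMap.sub_apply, LinearMap.smul_apply] at this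
      rw [← this]
      abel
    rw [h1, map_add, hEκ, (hker k _).mpr ⟨W x, rfl⟩, add_zero]
  refine ⟨ê, hê𝒜, ?_, hêκ⟩
  apply LinearMap.ext
  intro x
  rw [Module.End.mul_apply, ← sub_eq_zero]
  apply mze2_eq_zero_of_forall_dvd (p := p)
  intro k
  apply (hker k _).mp
  rw [map_sub, hêκ, hêκ, hidem k _ (htors k x), sub_self]

end Fermat.Agent.Mazur
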