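/-
MAZUR (Track M), package (E2) (helper1), part 11: **from an idempotent `ê` of the Tate module to the
abstract situation `Mze2Hyp`** (`import Mathlib` + abstract cores).

`K` a free `ℤ_p`-module of finite rank with Kummer maps `κ k : K →+ J` (kernel `p^k K`, range
`J[p^k]`), a Galois action `gal`, an idempotent `ê ∈ End K` commuting with `gal` and inducing
operators `e k` on `J` (`κ k (ê x) = e k (κ k x)`).  Then `T := range ê` with the restricted Kummer
maps (range `mze2Mk p e k = {y | p^k y = 0 ∧ e k y = y}`) and the restricted Galois action satisfies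
`Mze2Hyp`, PROVIDED `tr (ê gal g) = ε(g) tr (ê gal g⁻¹)` on `K`.
-/
import Mathlib
import Fermat.Agent.Lib.Mazur.E2.AbstractW

set_option autoImplicit false
set_option linter.style.haveILetI false
set_option linter.unusedSectionVars false

namespace Fermat.Agent.Mazur

variable {p : ℕ} [hp : Fact p.Prime] {K : Type*} [AddCommGroup K] [Module ℤ_[p] K]
  [Module.Free ℤ_[p] K] [Module.Finite ℤ_[p] K]
  {J : Type*} [AddCommGroup J] {B : Type*} [AddCommGroup B] {G : Type*} [Group G]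
  [DistribMulAction G J]

/-- the torsion cut out by a family of operators: `{y | p^k y = 0 ∧ e k y = y}` -/
def mze2Mk (p : ℕ) (e : ℕ → AddMonoid.End J) (k : ℕ) : AddSubgroup J where
  carrier := {y | p ^ k • y = 0 ∧ e k y = y}
  zero_mem' := ⟨smul_zero _, map_zero _⟩
  add_mem' := fun {a b} ha hb =>
    ⟨by rw [smul_add, ha.1, hb.1, add_zero], by rw [map_add, ha.2, hb.2]⟩
  neg_mem' := fun {a} ha => ⟨by rw [smul_neg, ha.1, neg_zero], by rw [map_neg, ha.2]⟩

theorem mem_mze2Mk {e : ℕ → AddMonoid.End J} {k : ℕ} {y : J} :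
    y ∈ mze2Mk p e k ↔ p ^ k • y = 0 ∧ e k y = y := Iff.rfl

variable (ê : Module.End ℤ_[p] K) (gal : G →* Module.End ℤ_[p] K)
  (hcomm : ∀ σ : G, ê * gal σ = gal σ * ê)

include hcomm in
theorem mze2_gal_mem_range (σ : G) (x : K) (hx : x ∈ LinearMap.range ê) :
    gal σ x ∈ LinearMap.range ê := by
  obtain ⟨z, rfl⟩ := hx
  exact ⟨gal σ z, by rw [← Module.End.mul_apply, hcomm, Module.End.mul_apply]⟩

/-- the Galois action on `T = range ê` -/
noncomputable def mze2GalT : G →* Module.End ℤ_[p] ↥(LinearMap.range ê) where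
  toFun σ := (gal σ).restrict (mze2_gal_mem_range ê gal hcomm σ)
  map_one' := by
    apply LinearMap.ext
    intro x
    apply Subtype.ext
    show gal 1 (x : K) = (x : K)
    rw [map_one, Module.End.one_apply]
  map_mul' σ τ := by
    apply LinearMap.ext
    intro x
    apply Subtype.ext
    show gal (σ * τ) (x : K) = gal σ (gal τ (x : K))
    rw [map_mul, Module.End.mul_apply]

theorem mze2GalT_coe (σ : G) (x : ↥(LinearMap.range ê)) :
    ((mze2GalT ê gal hcomm σ x : ↥(LinearMap.range ê)) : K) = gal σ (x : K) := rfl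

/-- the restricted Kummer maps -/
noncomputable def mze2KappaT (κ : ℕ → K →+ J) (k : ℕ) : ↥(LinearMap.range ê) →+ J :=
  (κ k).comp (LinearMap.range ê).subtype.toAddMonoidHom

theorem mze2KappaT_apply (κ : ℕ → K →+ J) (k : ℕ) (x : ↥(LinearMap.range ê)) :
    mze2KappaT ê κ k x = κ k (x : K) := rfl

variable (hidem : ê * ê = ê)

include hidem in
theorem mze2_idem_apply_of_mem {x : K} (hx : x ∈ LinearMap.range ê) : ê x = x := by
  obtain ⟨z, rfl⟩ := hx
  rw [← Module.End.mul_apply, hidem]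

include hidem hcomm in
/-- the trace on `T` is the trace of `ê ∘ gal` on `K` -/
theorem mze2_trace_galT (σ : G) :
    LinearMap.trace ℤ_[p] ↥(LinearMap.range ê) (mze2GalT ê gal hcomm σ)
      = LinearMap.trace ℤ_[p] K (ê * gal σ) := by
  have hf : ∀ x, (ê * gal σ) x ∈ LinearMap.range ê := fun x => ⟨gal σ x, rfl⟩
  rw [← LinearMap.trace_restrict_eq_of_forall_mem (LinearMap.range ê) (ê * gal σ) hf]
  congr 1
  apply LinearMap.ext
  intro x
  apply Subtype.ext
  show gal σ (x : K) = ê (gal σ (x : K))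
  rw [mze2_idem_apply_of_mem ê hidem (mze2_gal_mem_range ê gal hcomm σ _ x.2)]

include hidem hcomm in
/-- **the reduction to the abstract situation** -/
theorem mze2_hyp_of_idem (κ : ℕ → K →+ J)
    (hker : ∀ (k : ℕ) (x : K), κ k x = 0 ↔ ∃ w : K, x = (p : ℤ_[p]) ^ k • w)
    (htors : ∀ (k : ℕ) (x : K), p ^ k • κ k x = 0)
    (hsmul : ∀ (k : ℕ) (a : ℤ_[p]) (x : K), κ k (a • x) = PadicInt.appr a k • κ k x)
    (hsurj : ∀ (k : ℕ) (y : J), p ^ k • y = 0 → ∃ x : K, κ k x = y)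
    (hequiv : ∀ (k : ℕ) (σ : G) (x : K), κ k (gal σ x) = σ • κ k x)
    (e : ℕ → AddMonoid.End J) (hκe : ∀ (k : ℕ) (x : K), κ k (ê x) = e k (κ k x))
    (ε : G →* ℤ_[p]ˣ)
    (hstar : ∀ g : G, LinearMap.trace ℤ_[p] K (ê * gal g)
      = ((ε g : ℤ_[p]ˣ) : ℤ_[p]) * LinearMap.trace ℤ_[p] K (ê * gal g⁻¹))
    (ρ : J →+ B) (i₀ : G) (hρi : ∀ y : J, ρ (i₀ • y) = ρ y)
    (hcyc : ∀ (k : ℕ) (y : J), y ∈ mze2Mk p e k → ρ y = 0 →
      i₀ • y = PadicInt.appr ((ε i₀ : ℤ_[p]ˣ) : ℤ_[p]) k • y)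
    (hlam : ((ε i₀ : ℤ_[p]ˣ) : ℤ_[p]) - 1 ≠ 0) :
    Mze2Hyp (mze2KappaT ê κ) (mze2Mk p e) (mze2GalT ê gal hcomm) ε ρ i₀ where
  range k y := by
    constructor
    · rintro ⟨hy1, hy2⟩
      obtain ⟨x', rfl⟩ := hsurj k y hy1
      refine ⟨⟨ê x', x', rfl⟩, ?_⟩
      rw [mze2KappaT_apply]
      show κ k (ê x') = κ k x'
      rw [hκe, hy2]
    · rintro ⟨x, rfl⟩
      rw [mze2KappaT_apply]
      refine ⟨htors k _, ?_⟩
      rw [← hκe, mze2_idem_apply_of_mem ê hidem x.2]
  ker k x := by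
    rw [mze2KappaT_apply, hker]
    constructor
    · rintro ⟨w, hw⟩
      refine ⟨⟨ê w, w, rfl⟩, Subtype.ext ?_⟩
      show (x : K) = (p : ℤ_[p]) ^ k • ê w
      rw [← map_smul, ← hw, mze2_idem_apply_of_mem ê hidem x.2]
    · rintro ⟨w, rfl⟩
      exact ⟨w.1, rfl⟩
  smul k a x := by
    rw [mze2KappaT_apply, mze2KappaT_apply]
    exact hsmul k a x.1
  equiv k σ x := by
    rw [mze2KappaT_apply, mze2KappaT_apply, mze2GalT_coe]
    exact hequiv k σ x.1
  star g := by
    rw [mze2_trace_galT ê gal hcomm hidem, mze2_trace_galT ê gal hcomm hidem]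
    exact hstar g
  rho_i := hρi
  cyc := hcyc
  lam_ne := hlam

end Fermat.Agent.Mazur
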