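/-
MAZUR (Track M), package (E2) (helper1), part 13: **(CH) and (★) for the Tate module of `J₀(N)`**.

`mze2A p N` is the `ℤ_p`-subalgebra of `End TT` generated by the Hecke operators `tdmHeckeP p N t`.
* `mze2A_comm` : it commutes with the Galois action `alptGal`;
* `mze2A_trace_conj` : `tr (a ∘ c) = 0` for `a ∈ mze2A`;
* `mze2A_CH` : `gal g + ε(g) gal g⁻¹ ∈ mze2A` for every `g ∈ G_ℚ`;
* `mze2A_star` : `tr (a gal g) = ε(g) tr (a gal g⁻¹)` for `a ∈ mze2A`.
-/
import Fermat.Agent.Lib.Mazur.E.Id.Conj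
import Fermat.Agent.Lib.Mazur.E2.CH

set_option autoImplicit false
set_option linter.unusedSectionVars false
set_option linter.unusedVariables false
set_option linter.style.haveILetI false
set_option synthInstance.maxHeartbeats 400000

namespace Fermat.Agent.Mazur

open Complex Set Filter Topology Matrix MatrixGroups CongruenceSubgroup ModularCurve
open UpperHalfPlane hiding I
open Fermat.Agent.S24Lib ModularCurve.Period
open AlgebraicCurve Fermat.Agent.T1 Fermat.Agent.Alpha Fermat.Agent.S33W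
open scoped TensorProduct

local notation "Kbar" => AlgebraicClosure ℚ
local notation "GQ" => (AlgebraicClosure ℚ ≃ₐ[ℚ] AlgebraicClosure ℚ)

noncomputable section

variable (p : ℕ) [hp : Fact p.Prime] (N : ℕ) [NeZero N]

set_option quotPrecheck false in
local notation "TT" => ↥(parabolicHoms ℤ_[p] (Gamma0 N) ℤ_[p])
local notation "𝕋" => CuspForm.heckeAlgebra N 2 (∅ : Set ℕ)

/-- the `ℤ_p`-algebra generated by the Hecke operators on the Tate module -/
def mze2A : Subalgebra ℤ_[p] (Module.End ℤ_[p] TT) :=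
  Algebra.adjoin ℤ_[p] (Set.range (tdmHeckeP p N))

theorem mze2A_hecke_mem (t : 𝕋) : tdmHeckeP p N t ∈ mze2A p N :=
  Algebra.subset_adjoin ⟨t, rfl⟩

/-- `mze2A` is the `ℤ_p`-span of the Hecke operators -/
theorem mze2A_eq_span :
    Subalgebra.toSubmodule (mze2A p N) = Submodule.span ℤ_[p] (Set.range (tdmHeckeP p N)) := by
  unfold mze2A
  rw [Algebra.adjoin_eq_span]
  congr 1
  have h1 : (Set.range (tdmHeckeP p N) : Set (Module.End ℤ_[p] TT))
      = ((MonoidHom.mrange (tdmHeckeP p N).toMonoidHom : Submonoid (Module.End ℤ_[p] TT)) :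
        Set (Module.End ℤ_[p] TT)) := by
    ext x
    constructor
    · rintro ⟨t, rfl⟩
      exact ⟨t, rfl⟩
    · rintro ⟨t, rfl⟩
      exact ⟨t, rfl⟩
  rw [h1, Submonoid.closure_eq]

/-- the Galois action commutes with `mze2A` -/
theorem mze2A_comm (a : Module.End ℤ_[p] TT) (ha : a ∈ mze2A p N) (σ : GQ) :
    a * alptGal p N σ = alptGal p N σ * a := by
  unfold mze2A at ha
  induction ha using Algebra.adjoin_induction with
  | mem x hx =>
    obtain ⟨t, rfl⟩ := hx
    exact (mzei_comm p N σ t).symm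
  | algebraMap r =>
    rw [Algebra.algebraMap_eq_smul_one, smul_mul_assoc, one_mul, mul_smul_comm, mul_one]
  | add x y _ _ hx hy => rw [add_mul, mul_add, hx, hy]
  | mul x y _ _ hx hy => rw [mul_assoc, hy, ← mul_assoc, hx, mul_assoc]

/-- `tr (a ∘ c) = 0` on `mze2A` -/
theorem mze2A_trace_conj (a : Module.End ℤ_[p] TT) (ha : a ∈ mze2A p N) :
    LinearMap.trace ℤ_[p] TT (a * alptGal p N complexConjugation) = 0 := by
  have ha' : a ∈ Submodule.span ℤ_[p] (Set.range (tdmHeckeP p N)) := by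
    rw [← mze2A_eq_span]
    exact ha
  clear ha
  induction ha' using Submodule.span_induction with
  | mem x hx =>
    obtain ⟨t, rfl⟩ := hx
    exact mzei_trace_conj p N t
  | zero => rw [zero_mul, map_zero]
  | add x y _ _ hx hy => rw [add_mul, map_add, hx, hy, add_zero]
  | smul r x _ hx => rw [smul_mul_assoc, map_smul, hx, smul_zero]

/-- **(CH)** for the Tate module of `J₀(N)` -/
theorem mze2A_CH (g : GQ) :
    alptGal p N g + ((mze2Eps p g : ℤ_[p]ˣ) : ℤ_[p]) • alptGal p N g⁻¹ ∈ mze2A p N := by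
  have h := mze2_CH (alptGal p N) (Subalgebra.toSubmodule (mze2A p N)) (mzei_cont p N)
    (insert p N.primeFactors) (fun l hl hlT A φ hA hφ => ?_) g
  · exact h
  · rw [Finset.mem_insert, not_or] at hlT
    obtain ⟨hlp, hlN⟩ := hlT
    have hlN' : ¬ l ∣ N := fun h => hlN (Nat.mem_primeFactors.mpr ⟨hl, h, NeZero.ne N⟩)
    exact ⟨tdmHeckeP p N (CuspForm.heckeAlgebra.T hl hlN' (Set.notMem_empty l)),
      mze2A_hecke_mem p N _, mzei_es p N l hl hlN' hlp A hA φ hφ⟩

/-- **(★)** for the Tate module of `J₀(N)` -/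
theorem mze2A_star (a : Module.End ℤ_[p] TT) (ha : a ∈ mze2A p N) (g : GQ) :
    LinearMap.trace ℤ_[p] TT (a * alptGal p N g)
      = ((mze2Eps p g : ℤ_[p]ˣ) : ℤ_[p]) * LinearMap.trace ℤ_[p] TT (a * alptGal p N g⁻¹) :=
  mze2_star (alptGal p N) (mze2Eps p) (mze2A p N) (mze2A_comm p N) (mze2A_CH p N)
    complexConjugation complexConjugation_mul_self (mze2Eps_conj p) (mze2A_trace_conj p N) a ha g

end

end Fermat.Agent.Mazur
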