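/-
MAZUR (Track M), package (E2) (helper1), part 14: **the numerics (N-α), (N-w) for the Eisenstein part
of `J₀(N)[P^k]`, subgroup form**.

`𝔓` a place of `ℚ̄` over `P = 𝔓.p ∤ N`, `S₀` a good set of excluded primes, `e k` a family in the subring
generated by the `T_q`, `q ∉ S₀`, with `e (k+1) = e k` and `e k` idempotent on `J₀(N)[P^k]`
(e.g. `mzehE`); `M k = mze2Mk P e k = {y | P^k y = 0 ∧ e k y = y}`, `ρ = mzrRho 𝔓 N hN`.
Given `i₀ ∈ I_𝔓` with `ε(i₀) ≠ 1` acting on `M k ∩ ker ρ` through `ε` (hypothesis `hcyc`):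
* `mze2_exists_hyp` : the abstract situation `Mze2Hyp` holds for `T = ê TT`;
* `mze2_alpha_sub` : `∃ C, ∀ k, #M k ≤ [M k : M k ∩ ker ρ]^2 * C`;
* `mze2_w_sub` : for a Frobenius element `φ` at `𝔓`,
  `∃ a, ∀ k, #{y ∈ M k ∩ ker ρ | φ y = ε(φ) y} ≤ P^a`.
-/
import Fermat.Agent.Lib.Mazur.E2.Star
import Fermat.Agent.Lib.Mazur.E2.Lift
import Fermat.Agent.Lib.Mazur.E2.Restrict
import Fermat.Agent.Lib.Mazur.E2.Inertia
import Fermat.Agent.Lib.Mazur.Red.R3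
import Fermat.Agent.Lib.Mazur.E.Inst

set_option autoImplicit false
set_option linter.unusedSectionVars false
set_option linter.unusedVariables false
set_option linter.style.haveILetI false
set_option synthInstance.maxHeartbeats 400000

namespace Fermat.Agent.Mazur

open Complex Set Filter Topology Matrix MatrixGroups CongruenceSubgroup ModularCurve
open UpperHalfPlane hiding I
open Fermat.Agent.S24Lib ModularCurve.Period
open AlgebraicCurve Fermat.Agent.T1 Fermat.Agent.Alpha Fermat.Agent.S33W Fermat.Agent.TW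
open scoped TensorProduct

local notation "Qb" => AlgebraicClosure ℚ
local notation "GQ" => (AlgebraicClosure ℚ ≃ₐ[ℚ] AlgebraicClosure ℚ)

noncomputable section

variable (p : ℕ) [hp : Fact p.Prime] (N : ℕ) [NeZero N]

set_option quotPrecheck false in
local notation "TT" => ↥(parabolicHoms ℤ_[p] (Gamma0 N) ℤ_[p])

variable {S₀ : Finset ℕ} (hS : MzehGood N p S₀)
  (e : ℕ → AddMonoid.End (JZero N))
  (he : ∀ k, e k ∈ Subring.closure (Set.range (mzehT N S₀)))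
  (hsucc : ∀ (k : ℕ) (y : JZero N), p ^ k • y = 0 → e (k + 1) y = e k y)
  (hidem : ∀ (k : ℕ) (y : JZero N), p ^ k • y = 0 → e k (e k y) = e k y)

include hS he hsucc hidem in
/-- **the limit idempotent `ê ∈ mze2A`** -/
theorem mze2_exists_ehat : ∃ ê ∈ mze2A p N, ê * ê = ê ∧
    ∀ (k : ℕ) (x : TT), mzeiKappa p N k (ê x) = e k (mzeiKappa p N k x) := by
  refine mze2_exists_idem (mzeiKappa p N) (mzehT N S₀) (mze2A p N)
    (mzeiKappa_eq_zero_iff p N) (mzeiKappa_tors p N) (fun q => ?_) e he hsucc hidem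
  refine ⟨tdmHeckeP p N (CuspForm.heckeAlgebra.T q.1.2 (hS.not_dvd q) (Set.notMem_empty _)),
    mze2A_hecke_mem p N _, fun k x => ?_⟩
  rw [mzeiKappa_hecke p N q.1.2 (hS.not_dvd q) k x]
  rfl

variable (𝔓 : FFPlace) (hN : ¬ 𝔓.p ∣ N)

include hS he hsucc hidem in
/-- **the abstract situation `Mze2Hyp` holds for the Eisenstein part of the Tate module** -/
theorem mze2_exists_hyp (i₀ : GQ) (hi₀ : i₀ ∈ 𝔓.I)
    (hlam : ((mze2Eps p i₀ : ℤ_[p]ˣ) : ℤ_[p]) - 1 ≠ 0)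
    (hcyc : ∀ (k : ℕ) (y : JZero N), y ∈ mze2Mk p e k → mzrRho 𝔓 N hN y = 0 →
      i₀ • y = PadicInt.appr ((mze2Eps p i₀ : ℤ_[p]ˣ) : ℤ_[p]) k • y) :
    ∃ (ê : Module.End ℤ_[p] TT) (hcomm : ∀ σ : GQ, ê * alptGal p N σ = alptGal p N σ * ê),
      Mze2Hyp (mze2KappaT ê (mzeiKappa p N)) (mze2Mk p e) (mze2GalT ê (alptGal p N) hcomm)
        (mze2Eps p) (mzrRho 𝔓 N hN) i₀ := by
  obtain ⟨ê, hêA, hêidem, hêκ⟩ := mze2_exists_ehat p N hS e he hsucc hidem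
  refine ⟨ê, mze2A_comm p N ê hêA, ?_⟩
  exact mze2_hyp_of_idem ê (alptGal p N) (mze2A_comm p N ê hêA) hêidem (mzeiKappa p N)
    (mzeiKappa_eq_zero_iff p N) (mzeiKappa_tors p N) (mzeiKappa_smul p N)
    (mzeiKappa_surj p N) (mzeiKappa_gal p N) e hêκ (mze2Eps p) (mze2A_star p N ê hêA)
    (mzrRho 𝔓 N hN) i₀ (fun y => mzrRho_inertia 𝔓 N hN hi₀ y) hcyc hlam

include hS he hsucc hidem in
/-- **(N-α), subgroup form** -/
theorem mze2_alpha_sub (i₀ : GQ) (hi₀ : i₀ ∈ 𝔓.I)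
    (hlam : ((mze2Eps p i₀ : ℤ_[p]ˣ) : ℤ_[p]) - 1 ≠ 0)
    (hcyc : ∀ (k : ℕ) (y : JZero N), y ∈ mze2Mk p e k → mzrRho 𝔓 N hN y = 0 →
      i₀ • y = PadicInt.appr ((mze2Eps p i₀ : ℤ_[p]ˣ) : ℤ_[p]) k • y) :
    ∃ C : ℕ, ∀ k : ℕ, Nat.card ↥(mze2Mk p e k)
      ≤ ((mze2Mk p e k ⊓ (mzrRho 𝔓 N hN).ker).addSubgroupOf (mze2Mk p e k)).index ^ 2 * C := by
  obtain ⟨ê, hcomm, H⟩ := mze2_exists_hyp p N hS e he hsucc hidem 𝔓 hN i₀ hi₀ hlam hcyc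
  haveI : Module.Free ℤ_[p] ↥(LinearMap.range ê) :=
    Module.free_of_finite_type_torsion_free' (R := ℤ_[p]) (M := ↥(LinearMap.range ê))
  exact H.alpha

include hS he hsucc hidem in
/-- **(N-w), subgroup form** -/
theorem mze2_w_sub (i₀ : GQ) (hi₀ : i₀ ∈ 𝔓.I)
    (hlam : ((mze2Eps p i₀ : ℤ_[p]ˣ) : ℤ_[p]) - 1 ≠ 0)
    (hcyc : ∀ (k : ℕ) (y : JZero N), y ∈ mze2Mk p e k → mzrRho 𝔓 N hN y = 0 →
      i₀ • y = PadicInt.appr ((mze2Eps p i₀ : ℤ_[p]ˣ) : ℤ_[p]) k • y)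
    (φ : GQ) (hφ : 𝔓.P.IsFrobeniusAt φ 𝔓.p) :
    ∃ a : ℕ, ∀ k : ℕ, Nat.card {y : JZero N // y ∈ mze2Mk p e k ∧ mzrRho 𝔓 N hN y = 0 ∧
      φ • y = PadicInt.appr ((mze2Eps p φ : ℤ_[p]ˣ) : ℤ_[p]) k • y} ≤ p ^ a := by
  obtain ⟨ê, hcomm, H⟩ := mze2_exists_hyp p N hS e he hsucc hidem 𝔓 hN i₀ hi₀ hlam hcyc
  haveI : Module.Free ℤ_[p] ↥(LinearMap.range ê) :=
    Module.free_of_finite_type_torsion_free' (R := ℤ_[p]) (M := ↥(LinearMap.range ê))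
  obtain ⟨n₀, hn₀, hfix⟩ := mzr_exists_exponent 𝔓 N hN
  exact H.w_card φ (DistribSMul.toAddMonoidHom (MzrJb 𝔓 N) (mzrPhi 𝔓 N))
    (MulAction.injective (mzrPhi 𝔓 N)) (fun y => mzrRho_frobenius 𝔓 N hN hφ y) n₀ hn₀.ne'
    (fun b hb => hfix b hb)

end

end Fermat.Agent.Mazur
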