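/-
MAZUR (Track M), package (E2) (helper1), part 15: **the numerics (N-α), (N-w) in the literal shapes
consumed by (B)/(H)** (`MzhInputs2.num_alpha`, `MzhInputs2.num_w`), for every level `N` and every
place `𝔓` of good reduction (`𝔓.p ∤ N`, `𝔓.p = 2` allowed), NO further hypothesis.

* `mze2_cyc_M` : `I_𝔓` acts on `M k ∩ ker ρ` through the `p`-adic cyclotomic character
  (from (JH) `mzj_main` + (P-cyc) `mzqi_cyc`);
* `mze2_num_alpha` : `∃ C, ∀ k, #M k ≤ [M k : M k⁰]^2 * C`, `M k = MzjX hS k`,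
  `M k⁰ = mzqiX0 𝔓 N hN (mzjVal hS k)`;
* `mze2_count_w` : for a Frobenius element `φ` at `𝔓`, the number of `φ`-equivariant characters of
  `M k⁰` is bounded independently of `k`;
* `mze2_num_w` : the exponent form `∃ φ ∈ 𝔓.D, ∃ aP, ∀ k χ, ∃ χ', ∀ x ∈ M k⁰,
  χ x ^ (P ^ aP) = φ (χ' (φ⁻¹ x)) / χ' x`.
-/
import Fermat.Agent.Lib.Mazur.E2.Main
import Fermat.Agent.Lib.Mazur.E2.Char
import Fermat.Agent.Lib.Mazur.E.JH.Main
import Fermat.Agent.Lib.Mazur.LocP.Inst.Main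
import Fermat.Agent.Lib.Mazur.LocP.W.Count

set_option autoImplicit false
set_option linter.unusedSectionVars false
set_option linter.unusedVariables false
set_option linter.style.haveILetI false
set_option synthInstance.maxHeartbeats 400000

namespace Fermat.Agent.Mazur

open AlgebraicCurve ModularCurve Fermat.Agent.TW Fermat.Agent.S05Lib

local notation "Qb" => AlgebraicClosure ℚ
local notation "GQ" => (AlgebraicClosure ℚ ≃ₐ[ℚ] AlgebraicClosure ℚ)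

noncomputable section

/-- `appr a j ≡ appr a k mod p^j` for `j ≤ k` -/
theorem mze2_appr_modEq (p : ℕ) [hp : Fact p.Prime] (a : ℤ_[p]) {j k : ℕ} (hjk : j ≤ k) :
    PadicInt.appr a j ≡ PadicInt.appr a k [MOD p ^ j] := by
  apply mze2_modEq_of_sub_mem p
  obtain ⟨c₁, hc₁⟩ := mze2_appr_spec p a j
  obtain ⟨c₂, hc₂⟩ := mze2_appr_spec p a k
  obtain ⟨d, rfl⟩ := Nat.exists_eq_add_of_le hjk
  refine ⟨(p : ℤ_[p]) ^ d * c₂ - c₁, ?_⟩
  rw [mul_sub, ← mul_assoc, ← pow_add, ← hc₁, ← hc₂]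
  ring

/-- a finite commutative group killed by `p^k` has `p`-power order -/
theorem mze2_card_eq_pow {p : ℕ} (hp : p.Prime) {A : Type*} [AddCommGroup A] [Finite A] (k : ℕ)
    (h : ∀ x : A, p ^ k • x = 0) : ∃ n : ℕ, Nat.card A = p ^ n := by
  haveI : Fact p.Prime := ⟨hp⟩
  have hPG : IsPGroup p (Multiplicative A) := by
    intro x
    exact ⟨k, congrArg Multiplicative.ofAdd (h (Multiplicative.toAdd x))⟩
  obtain ⟨n, hn⟩ := IsPGroup.iff_card.mp hPG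
  exact ⟨n, hn⟩

variable (𝔓 : FFPlace) (N : ℕ) [NeZero N] (hN : ¬ 𝔓.p ∣ N) {S₀ : Finset ℕ}
  (hS : MzehGood N 𝔓.p S₀)

/-- **(cyc) for `M k`**: the inertia group at `𝔓` acts on `M k ∩ ker ρ` through the `p`-adic
cyclotomic character -/
theorem mze2_cyc_M [hp : Fact 𝔓.p.Prime] (i₀ : GQ) (hi₀ : i₀ ∈ 𝔓.I) (k : ℕ) (y : JZero N)
    (hy : y ∈ mzehM N 𝔓.p S₀ hS k) (hρ : mzrRho 𝔓 N hN y = 0) :
    i₀ • y = PadicInt.appr ((mze2Eps 𝔓.p i₀ : ℤ_[𝔓.p]ˣ) : ℤ_[𝔓.p]) k • y := by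
  obtain ⟨n, F, hF0, hFn, hmono, hstab, hcard, -⟩ := mzj_main hS k
  obtain ⟨e, he, hζ⟩ := mzqi_cyc 𝔓 N hN (mzjVal hS k) (mzjVal_injective hS k)
    (fun τ _ x => mzjVal_smul hS k τ x) n F hF0 hFn hmono
    (fun j hj τ _ x hx => hstab j hj τ x hx) hcard i₀ hi₀
  set x : MzjX hS k := ⟨y, hy⟩ with hx
  have hxy : mzjVal hS k x = y := rfl
  have hx0 : x ∈ mzqiX0 𝔓 N hN (mzjVal hS k) := (mem_mzqiX0 𝔓 N hN _ x).mpr (by rw [hxy]; exact hρ)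
  have h1 : i₀ • y = e • y := by
    have := congrArg (mzjVal hS k) (he x hx0)
    rw [mzjVal_smul, map_nsmul, hxy] at this
    exact this
  have hpk : 𝔓.p ^ k • y = 0 := mzehM_tors hS hy
  obtain ⟨j, hjk, hj⟩ : ∃ j ≤ k, addOrderOf y = 𝔓.p ^ j :=
    (Nat.dvd_prime_pow 𝔓.hp).mp (addOrderOf_dvd_of_nsmul_eq_zero hpk)
  have hdvd : 𝔓.p ^ j ∣ Nat.card (MzjX hS k) := by
    have h2 : addOrderOf x = addOrderOf y :=
      (addOrderOf_injective (mzjVal hS k) (mzjVal_injective hS k) x).symm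
    rw [← hj, ← h2]
    exact addOrderOf_dvd_natCard x
  have hmod : e ≡ PadicInt.appr ((mze2Eps 𝔓.p i₀ : ℤ_[𝔓.p]ˣ) : ℤ_[𝔓.p]) j [MOD 𝔓.p ^ j] := by
    refine mze2Eps_modEq 𝔓.p i₀ j e (fun ζ hζ' => hζ ζ ?_)
    obtain ⟨c, hc⟩ := hdvd
    rw [hc, pow_mul, hζ', one_pow]
  have hmod2 := mze2_appr_modEq 𝔓.p ((mze2Eps 𝔓.p i₀ : ℤ_[𝔓.p]ˣ) : ℤ_[𝔓.p]) hjk
  rw [h1]
  refine nsmul_eq_nsmul_of_modEq (hmod.trans hmod2) ?_
  rw [← hj]
  exact addOrderOf_nsmul_eq_zero y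

/-- the Eisenstein part as `mze2Mk` -/
theorem mze2Mk_eq_mzehM (k : ℕ) :
    mze2Mk 𝔓.p (fun k => (mzehE N 𝔓.p S₀ hS k : AddMonoid.End (JZero N))) k
      = mzehM N 𝔓.p S₀ hS k :=
  AddSubgroup.ext fun _ => Iff.rfl

/-- **(N-α)**, literal shape of `MzhInputs2.num_alpha` (any level `N`) -/
theorem mze2_num_alpha : ∃ C : ℕ, ∀ k : ℕ,
    Nat.card (MzjX hS k) ≤ (mzqiX0 𝔓 N hN (mzjVal hS k)).index ^ 2 * C := by
  haveI : Fact 𝔓.p.Prime := ⟨𝔓.hp⟩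
  obtain ⟨i₀, hi₀, hlam⟩ := mze2_exists_inertia_eps_ne_one 𝔓.p 𝔓.P 𝔓.hP
  obtain ⟨C, hC⟩ := mze2_alpha_sub 𝔓.p N hS
    (fun k => (mzehE N 𝔓.p S₀ hS k : AddMonoid.End (JZero N)))
    (fun k => mzehE_mem hS k) (fun k y hy => mzehE_succ hS hy) (fun k y hy => mzehE_idem hS hy)
    𝔓 hN i₀ hi₀ hlam
    (fun k y hy hρ => mze2_cyc_M 𝔓 N hN hS i₀ hi₀ k y (by rw [← mze2Mk_eq_mzehM]; exact hy) hρ)
  refine ⟨C, fun k => ?_⟩
  have h := hC k
  rw [mze2Mk_eq_mzehM, AddSubgroup.inf_addSubgroupOf_left] at h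
  exact h

/-! ### (N-w) -/

/-- **from the count of `φ`-equivariant characters of a subgroup `X0` to the exponent form**
(the proof of `mzqw_exponent_of_card`, for a bare subgroup) -/
theorem mze2_exponent_of_card {P : ℕ} (hP : P.Prime) {X : Type*} [AddCommGroup X]
    [DistribMulAction GQ X] [Finite X] (X0 : AddSubgroup X) {φ : GQ}
    (hφX0 : ∀ x ∈ X0, φ • x ∈ X0) (hcard : ∃ k, Nat.card ↥X0 = P ^ k) (a : ℕ)
    (hcount : Nat.card {ψ : AddChar ↥X0 Qb //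
      ∀ x : ↥X0, ψ ⟨φ • (x : X), hφX0 x x.2⟩ = φ (ψ x)} ≤ P ^ a) :
    ∀ χ : AddChar X Qb, ∃ χ' : AddChar X Qb, ∀ x ∈ X0,
      χ x ^ (P ^ a) = φ (χ' (φ⁻¹ • x)) / χ' x := by
  classical
  haveI : Fact P.Prime := ⟨hP⟩
  haveI := mzqw_finite_addChar ↥X0
  -- `φ⁻¹` preserves `X0` (finiteness)
  have hφinv : ∀ x ∈ X0, φ⁻¹ • x ∈ X0 := by
    let s : ↥X0 → ↥X0 := fun x => ⟨φ • (x : X), hφX0 x x.2⟩
    have hs : Function.Injective s := by
      intro x y h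
      have h1 : φ • (x : X) = φ • (y : X) := congrArg Subtype.val h
      exact Subtype.ext (smul_left_cancel φ h1)
    intro x hx
    obtain ⟨y, hy⟩ := (Finite.injective_iff_surjective.mp hs) ⟨x, hx⟩
    have h1 : φ • (y : X) = x := congrArg Subtype.val hy
    rw [← h1, inv_smul_smul]
    exact y.2
  -- the twist as an endomorphism of the character group
  let tw : AddChar ↥X0 Qb →* AddChar ↥X0 Qb :=
    { toFun := fun ψ =>
        { toFun := fun x => φ (ψ ⟨φ⁻¹ • (x : X), hφinv x x.2⟩)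
          map_zero_eq_one' := by
            have : (⟨φ⁻¹ • ((0 : ↥X0) : X), hφinv _ (0 : ↥X0).2⟩ : ↥X0) = 0 :=
              Subtype.ext (smul_zero _)
            rw [this, AddChar.map_zero_eq_one, map_one]
          map_add_eq_mul' := by
            intro x y
            have : (⟨φ⁻¹ • ((x + y : ↥X0) : X), hφinv _ (x + y).2⟩ : ↥X0) =
                ⟨φ⁻¹ • (x : X), hφinv x x.2⟩ + ⟨φ⁻¹ • (y : X), hφinv y y.2⟩ :=
              Subtype.ext (smul_add _ _ _)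
            rw [this, AddChar.map_add_eq_mul, map_mul] }
      map_one' := by
        ext x
        show φ ((1 : AddChar ↥X0 Qb) _) = (1 : AddChar ↥X0 Qb) x
        rw [AddChar.one_apply, AddChar.one_apply, map_one]
      map_mul' := by
        intro ψ ψ'
        ext x
        show φ ((ψ * ψ') _) = _
        rw [AddChar.mul_apply, map_mul]
        rfl }
  have htw : ∀ (ψ : AddChar ↥X0 Qb) (x : ↥X0),
      tw ψ x = φ (ψ ⟨φ⁻¹ • (x : X), hφinv x x.2⟩) := fun ψ x => rfl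
  let T : AddChar ↥X0 Qb →* AddChar ↥X0 Qb :=
    { toFun := fun ψ => tw ψ / ψ
      map_one' := by rw [map_one, div_one]
      map_mul' := by
        intro ψ ψ'
        rw [map_mul, mul_div_mul_comm] }
  have hT : ∀ ψ, T ψ = tw ψ / ψ := fun ψ => rfl
  -- the kernel of `T` consists of the equivariant characters
  have hker : Nat.card T.ker ≤ P ^ a := by
    refine le_trans (Nat.card_le_card_of_injective
      (fun ψ : T.ker => (⟨ψ.1, fun x => ?_⟩ : {ψ : AddChar ↥X0 Qb //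
        ∀ x : ↥X0, ψ ⟨φ • (x : X), hφX0 x x.2⟩ = φ (ψ x)})) ?_) hcount
    · have h1 : T ψ.1 = 1 := ψ.2
      rw [hT, div_eq_one] at h1
      have h2 := DFunLike.congr_fun h1 (⟨φ • (x : X), hφX0 x x.2⟩ : ↥X0)
      rw [htw] at h2
      rw [← h2]
      congr 2
      exact Subtype.ext (inv_smul_smul φ (x : X))
    · intro ψ ψ' h
      have h1 : (ψ : AddChar ↥X0 Qb) = (ψ' : AddChar ↥X0 Qb) := Subtype.mk.inj h
      exact Subtype.ext h1
  -- the character group is a `P`-group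
  have hG : IsPGroup P (AddChar ↥X0 Qb) := by
    obtain ⟨k, hk⟩ := hcard
    intro ψ
    refine ⟨k, ?_⟩
    ext x
    rw [AddChar.pow_apply, ← AddChar.map_nsmul_eq_pow, ← hk, card_nsmul_eq_zero',
      AddChar.map_zero_eq_one, AddChar.one_apply]
  intro χ
  obtain ⟨ψ', hψ'⟩ := mzqw_pow_mem_range hG T a hker (χ.compAddMonoidHom X0.subtype)
  obtain ⟨χ', hχ'⟩ := mzs_addChar_extend X0 ψ'
  refine ⟨χ', fun x hx => ?_⟩
  have h1 := DFunLike.congr_fun hψ' (⟨x, hx⟩ : ↥X0)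
  rw [hT, AddChar.div_apply', htw, AddChar.pow_apply] at h1
  have h2 : (χ.compAddMonoidHom X0.subtype) (⟨x, hx⟩ : ↥X0) = χ x := rfl
  rw [h2] at h1
  rw [← h1, ← hχ' ⟨x, hx⟩, ← hχ' ⟨φ⁻¹ • x, hφinv x hx⟩]

/-- a Frobenius element at `𝔓` preserves `M k⁰` -/
theorem mze2_frob_mem_X0 {φ : GQ} (hφ : 𝔓.P.IsFrobeniusAt φ 𝔓.p) (k : ℕ) :
    ∀ x ∈ mzqiX0 𝔓 N hN (mzjVal hS k), φ • x ∈ mzqiX0 𝔓 N hN (mzjVal hS k) := by
  intro x hx
  rw [mem_mzqiX0] at hx ⊢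
  rw [mzjVal_smul, mzrRho_frobenius 𝔓 N hN hφ, hx]
  exact smul_zero (A := MzrJb 𝔓 N) (mzrPhi 𝔓 N)

/-- **(N-w), counting form** (the hypothesis `hcount` of `mzqw_exponent_of_card`) -/
theorem mze2_count_w {φ : GQ} (hφ : 𝔓.P.IsFrobeniusAt φ 𝔓.p) : ∃ a : ℕ, ∀ k : ℕ,
    Nat.card {ψ : AddChar ↥(mzqiX0 𝔓 N hN (mzjVal hS k)) Qb //
      ∀ x : ↥(mzqiX0 𝔓 N hN (mzjVal hS k)),
        ψ ⟨φ • (x : MzjX hS k), mze2_frob_mem_X0 𝔓 N hN hS hφ k x x.2⟩ = φ (ψ x)} ≤ 𝔓.p ^ a := by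
  classical
  haveI : Fact 𝔓.p.Prime := ⟨𝔓.hp⟩
  obtain ⟨i₀, hi₀, hlam⟩ := mze2_exists_inertia_eps_ne_one 𝔓.p 𝔓.P 𝔓.hP
  obtain ⟨a, ha⟩ := mze2_w_sub 𝔓.p N hS
    (fun k => (mzehE N 𝔓.p S₀ hS k : AddMonoid.End (JZero N)))
    (fun k => mzehE_mem hS k) (fun k y hy => mzehE_succ hS hy) (fun k y hy => mzehE_idem hS hy)
    𝔓 hN i₀ hi₀ hlam
    (fun k y hy hρ => mze2_cyc_M 𝔓 N hN hS i₀ hi₀ k y (by rw [← mze2Mk_eq_mzehM]; exact hy) hρ)
    φ hφ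
  refine ⟨a, fun k => ?_⟩
  set X0 := mzqiX0 𝔓 N hN (mzjVal hS k) with hX0
  set m := PadicInt.appr ((mze2Eps 𝔓.p φ : ℤ_[𝔓.p]ˣ) : ℤ_[𝔓.p]) k with hm
  -- the action of `φ` on `X0`
  let f : ↥X0 →+ ↥X0 :=
    { toFun := fun x => ⟨φ • (x : MzjX hS k), mze2_frob_mem_X0 𝔓 N hN hS hφ k x x.2⟩
      map_zero' := Subtype.ext (smul_zero φ)
      map_add' := fun x y => Subtype.ext (smul_add φ (x : MzjX hS k) (y : MzjX hS k)) }
  have htors : ∀ x : ↥X0, 𝔓.p ^ k • x = 0 := by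
    intro x
    apply Subtype.ext
    apply mzjVal_injective hS k
    rw [AddSubgroup.coe_nsmul, map_nsmul, AddSubgroup.coe_zero, map_zero]
    exact mzehM_tors hS (mzjVal_mem hS k _)
  have hτ : ∀ (ψ : AddChar ↥X0 Qb) (x : ↥X0), φ (ψ x) = ψ x ^ m := by
    intro ψ x
    refine mze2Eps_spec 𝔓.p φ k (ψ x) ?_
    rw [← AddChar.map_nsmul_eq_pow, htors x, AddChar.map_zero_eq_one]
  have h1 := mze2_card_equivariant_char_le f (fun z : Qb => φ z) m hτ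
  refine h1.trans (le_trans ?_ (ha k))
  haveI : Finite ↥(mze2Mk 𝔓.p (fun k => (mzehE N 𝔓.p S₀ hS k : AddMonoid.End (JZero N))) k) := by
    rw [mze2Mk_eq_mzehM]
    exact mzehM_finite hS k
  haveI : Finite {y : JZero N //
      y ∈ mze2Mk 𝔓.p (fun k => (mzehE N 𝔓.p S₀ hS k : AddMonoid.End (JZero N))) k ∧
        mzrRho 𝔓 N hN y = 0 ∧ φ • y = m • y} :=
    Finite.of_injective (fun y => (⟨y.1, y.2.1⟩ :
      ↥(mze2Mk 𝔓.p (fun k => (mzehE N 𝔓.p S₀ hS k : AddMonoid.End (JZero N))) k)))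
      (fun y y' h => Subtype.ext (by
        have h2 := congrArg (fun z : ↥(mze2Mk 𝔓.p
          (fun k => (mzehE N 𝔓.p S₀ hS k : AddMonoid.End (JZero N))) k) => (z : JZero N)) h
        exact h2))
  refine Nat.card_le_card_of_injective
    (fun x => ⟨mzjVal hS k ((x : ↥X0) : MzjX hS k), ?_, ?_, ?_⟩) ?_
  · rw [mze2Mk_eq_mzehM]
    exact mzjVal_mem hS k _
  · exact (mem_mzqiX0 𝔓 N hN _ _).mp (x : ↥X0).2
  · have h2 := congrArg (fun z : ↥X0 => mzjVal hS k (z : MzjX hS k)) x.2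
    simp only [AddSubgroup.coe_nsmul, map_nsmul] at h2
    exact h2
  · intro x y h
    have h2 : mzjVal hS k ((x : ↥X0) : MzjX hS k) = mzjVal hS k ((y : ↥X0) : MzjX hS k) := by
      have h3 := congrArg (fun z : {y : JZero N //
        y ∈ mze2Mk 𝔓.p (fun k => (mzehE N 𝔓.p S₀ hS k : AddMonoid.End (JZero N))) k ∧
          mzrRho 𝔓 N hN y = 0 ∧ φ • y = m • y} => (z : JZero N)) h
      exact h3
    exact Subtype.ext (Subtype.ext (mzjVal_injective hS k h2))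

/-- **(N-w)**, literal shape of `MzhInputs2.num_w` (any level `N`) -/
theorem mze2_num_w : ∃ φ ∈ 𝔓.D, ∃ aP : ℕ, ∀ k : ℕ, ∀ χ : AddChar (MzjX hS k) Qb,
    ∃ χ' : AddChar (MzjX hS k) Qb, ∀ x ∈ mzqiX0 𝔓 N hN (mzjVal hS k),
      χ x ^ (𝔓.p ^ aP) = φ (χ' (φ⁻¹ • x)) / χ' x := by
  obtain ⟨φ, hφ⟩ := Fermat.Agent.Lib.Helper6.exists_isFrobeniusAt 𝔓.P 𝔓.hp 𝔓.hP
  obtain ⟨a, ha⟩ := mze2_count_w 𝔓 N hN hS hφ
  refine ⟨φ, hφ.mem_decompositionSubgroup, a, fun k => ?_⟩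
  have hcard : ∃ j, Nat.card ↥(mzqiX0 𝔓 N hN (mzjVal hS k)) = 𝔓.p ^ j := by
    refine mze2_card_eq_pow 𝔓.hp k (fun x => ?_)
    apply Subtype.ext
    apply mzjVal_injective hS k
    rw [AddSubgroup.coe_nsmul, map_nsmul, AddSubgroup.coe_zero, map_zero]
    exact mzehM_tors hS (mzjVal_mem hS k _)
  exact mze2_exponent_of_card 𝔓.hp (mzqiX0 𝔓 N hN (mzjVal hS k))
    (mze2_frob_mem_X0 𝔓 N hN hS hφ k) hcard a (ha k)

end

end Fermat.Agent.Mazur
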